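import Fermat.Agent.Voronin.Vectors
import Mathlib.Analysis.LocallyConvex.Separation
import Mathlib.Analysis.SpecialFunctions.Complex.LogBounds
import Mathlib.Analysis.SpecialFunctions.Complex.Arg

/-!
# Euler products with free phases come uniformly near every holomorphic function

A functional bounded on the sums `∑ z p v p`, `|z p| ≤ 1`, would give a convergent
`∑ p^(-3/4) |F (log p)|`, so these sums are dense. Rounding to `|z p| = 1` costs at most
`(∑ ‖v p‖²)^(1/2)`, and the quadratic terms of the logarithm are small beyond a large `N`.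
-/

set_option autoImplicit false

noncomputable section

namespace FA.Voronin

open Filter Finset Complex
open scoped Topology ENNReal ComplexConjugate

variable {R : ℝ}

/-- The sums with coefficients in the unit disc, over primes `≥ N` of `S`. -/
def discSums (S : Set ℕ) (R : ℝ) (N : ℕ) : Set Coords :=
  {y | ∃ (s : Finset ℕ) (a : ℕ → ℂ), (∀ n ∈ s, N ≤ n) ∧ (∀ n, ‖a n‖ ≤ 1) ∧
    y = ∑ n ∈ s, a n • S.indicator (primeVec R) n}

theorem convex_discSums (S : Set ℕ) (R : ℝ) (N : ℕ) : Convex ℝ (discSums S R N) := by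
  classical
  rintro x ⟨s, a, hs, ha, rfl⟩ y ⟨s', a', hs', ha', rfl⟩ μ ν hμ hν hμν
  refine ⟨s ∪ s', fun n => (μ : ℂ) * (if n ∈ s then a n else 0) +
    (ν : ℂ) * (if n ∈ s' then a' n else 0), fun n hn => ?_, fun n => ?_, ?_⟩
  · exact (mem_union.1 hn).elim (hs n) (hs' n)
  · refine (norm_add_le _ _).trans ?_
    rw [norm_mul, norm_mul, Complex.norm_real, Complex.norm_real, Real.norm_of_nonneg hμ,
      Real.norm_of_nonneg hν, ← hμν]
    refine add_le_add (mul_le_of_le_one_right hμ ?_) (mul_le_of_le_one_right hν ?_) <;>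
      split_ifs <;> simp [ha n, ha' n]
  · simp only [add_smul, sum_add_distrib, ite_smul, zero_smul, mul_smul, smul_ite, smul_zero]
    rw [← sum_filter, ← sum_filter, filter_mem_eq_inter, filter_mem_eq_inter,
      union_inter_cancel_left, union_inter_cancel_right, ← smul_sum, ← smul_sum]
    rfl

theorem zero_mem_discSums (S : Set ℕ) (R : ℝ) (N : ℕ) : (0 : Coords) ∈ discSums S R N :=
  ⟨∅, fun _ => 0, by simp, fun _ => by simp, by simp⟩

/-- **Density of the sums.** -/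
theorem dense_discSums {S : Set ℕ} (hS : PrimeRich S) (hR : 0 < R) (hR4 : R < 1 / 4) (N : ℕ) :
    Dense (discSums S R N) := by
  intro w
  by_contra hw
  obtain ⟨f, u, hf, hu⟩ := RCLike.geometric_hahn_banach_closed_point (𝕜 := ℂ)
    (convex_discSums S R N).closure isClosed_closure hw
  have hu0 : 0 < u := by simpa using hf 0 (subset_closure (zero_mem_discSums S R N))
  have hsum : Summable fun n => ‖f (S.indicator (primeVec R) n)‖ := by
    rw [← summable_nat_add_iff N]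
    refine summable_of_sum_range_le (c := u) (fun _ => norm_nonneg _) fun M => ?_
    obtain ⟨a, ha⟩ : ∃ a : ℕ → ℂ,
        a = fun n => cexp (-((f (S.indicator (primeVec R) n)).arg * I)) := ⟨_, rfl⟩
    have hmem : ∑ n ∈ Ico N (N + M), a n • S.indicator (primeVec R) n ∈ discSums S R N :=
      ⟨_, a, fun n hn => (mem_Ico.1 hn).1, fun n => by
        rw [ha]; simp [Complex.norm_exp], rfl⟩
    have h := hf _ (subset_closure hmem)
    rw [map_sum, sum_Ico_eq_sum_range, Nat.add_sub_cancel_left] at h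
    refine le_trans (le_of_eq ?_) h.le
    rw [map_sum]
    refine sum_congr rfl fun n _ => ?_
    rw [map_smul, ha, smul_eq_mul, add_comm n N]
    nth_rw 2 [← Complex.norm_mul_exp_arg_mul_I (f (S.indicator (primeVec R) (N + n)))]
    rw [mul_left_comm, ← Complex.exp_add, neg_add_cancel, Complex.exp_zero, mul_one]
    simp
  obtain ⟨c, hc⟩ : ∃ c : ℕ → ℂ, c = fun k => f (lp.single 2 k (1 : ℂ)) * (-(R : ℂ)) ^ k :=
    ⟨_, rfl⟩
  have hcR : ∀ k, ‖c k‖ ≤ ‖f‖ * R ^ k := fun k => by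
    rw [hc, norm_mul, norm_pow, norm_neg, Complex.norm_real, Real.norm_of_nonneg hR.le]
    refine mul_le_mul_of_nonneg_right ((f.le_opNorm _).trans (le_of_eq ?_)) (by positivity)
    rw [lp.norm_single (by norm_num) k, norm_one, mul_one]
  have hexp : ∀ y : Coords, HasSum (fun k => y k * f (lp.single 2 k (1 : ℂ))) (f y) := fun y => by
    refine ((lp.hasSum_single (by norm_num) y).mapL f).congr_fun fun k => ?_
    rw [← smul_eq_mul, ← map_smul, ← lp.single_smul, smul_eq_mul, mul_one]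
  have hval : ∀ x : ℝ, f (coordVec R x) = expSeries c x := fun x => by
    rw [expSeries, ← (hexp _).tsum_eq]
    refine tsum_congr fun k => ?_
    rw [coordVec_apply, hc]
    simp only
    rw [← neg_mul, mul_pow]
    ring
  have hterm : Summable (primeTerm S c) := hsum.congr fun n => by
    by_cases hn : n ∈ S
    · rw [primeTerm, Set.indicator_of_mem hn, Set.indicator_of_mem hn, primeVec]
      split_ifs
      · rw [map_smul, smul_eq_mul, norm_mul, hval, Complex.norm_real,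
          Real.norm_of_nonneg (by positivity)]
      · rw [map_zero, norm_zero]
    · rw [primeTerm, Set.indicator_of_notMem hn, Set.indicator_of_notMem hn, map_zero, norm_zero]
  have hzero : ∀ k, f (lp.single 2 k (1 : ℂ)) = 0 := fun k => by
    have := coeff_eq_zero_of_summable hS hR.le hR4 hcR hterm k
    rw [hc] at this
    exact (mul_eq_zero.1 this).resolve_right
      (pow_ne_zero _ (neg_ne_zero.2 (Complex.ofReal_ne_zero.2 hR.ne')))
  have hfw : f w = 0 := (hexp w).unique (by simp [hzero, hasSum_zero])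
  rw [hfw, map_zero] at hu
  linarith

/-- Rounding to unit coefficients. -/
theorem exists_unit_rounding (v : ℕ → Coords) (s : Finset ℕ) {a : ℕ → ℂ} (ha : ∀ n, ‖a n‖ ≤ 1) :
    ∃ z : ℕ → ℂ, (∀ n, ‖z n‖ = 1) ∧
      ‖∑ n ∈ s, (z n - a n) • v n‖ ^ 2 ≤ ∑ n ∈ s, ‖v n‖ ^ 2 := by
  classical
  induction s using Finset.induction_on with
  | empty => exact ⟨fun _ => 1, fun _ => norm_one, by simp⟩
  | insert i s hi ih =>
    obtain ⟨z, hz, hle⟩ := ih
    obtain ⟨ω, hω⟩ : ∃ ω : ℂ, ω = cexp ((a i).arg * I) := ⟨_, rfl⟩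
    have hω1 : ‖ω‖ = 1 := hω ▸ Complex.norm_exp_ofReal_mul_I _
    obtain ⟨d, hd⟩ : ∃ d, d = √(1 - ‖a i‖ ^ 2) := ⟨_, rfl⟩
    have hd2 : ‖a i‖ ^ 2 + d ^ 2 = 1 := by
      rw [hd, Real.sq_sqrt]
      · ring
      · nlinarith [ha i, norm_nonneg (a i)]
    have hai : a i = (‖a i‖ : ℂ) * ω := by rw [hω, Complex.norm_mul_exp_arg_mul_I]
    have hunit : ∀ σ : ℝ, σ ^ 2 = d ^ 2 → ‖((‖a i‖ : ℂ) + σ * I) * ω‖ = 1 := fun σ hσ => by
      rw [norm_mul, hω1, mul_one, Complex.norm_add_mul_I, hσ, hd2, Real.sqrt_one]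
    obtain ⟨D, hD⟩ : ∃ D, D = ∑ n ∈ s, (z n - a n) • v n := ⟨_, rfl⟩
    rw [← hD] at hle
    obtain ⟨x, hx⟩ : ∃ x, x = ((d : ℂ) * I * ω) • v i := ⟨_, rfl⟩
    have hxle : ‖x‖ ^ 2 ≤ ‖v i‖ ^ 2 := by
      rw [hx, norm_smul, norm_mul, norm_mul, hω1, Complex.norm_I, mul_one, mul_one,
        Complex.norm_real, Real.norm_eq_abs, mul_pow, sq_abs]
      exact mul_le_of_le_one_left (sq_nonneg _) (by nlinarith [sq_nonneg ‖a i‖])
    have hnew : ∀ σ : ℝ, ∑ n ∈ insert i s,
        (Function.update z i (((‖a i‖ : ℂ) + σ * I) * ω) n - a n) • v n =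
          D + ((σ : ℂ) * I * ω) • v i := fun σ => by
      rw [sum_insert hi, Function.update_self, sum_congr rfl fun n hn => by
        rw [Function.update_of_ne (ne_of_mem_of_not_mem hn hi)], ← hD, add_comm]
      congr 2
      nth_rw 2 [hai]
      ring
    have hone : ∀ σ : ℝ, σ ^ 2 = d ^ 2 → ∀ n,
        ‖Function.update z i (((‖a i‖ : ℂ) + σ * I) * ω) n‖ = 1 := fun σ hσ n => by
      rcases eq_or_ne n i with rfl | h
      · rw [Function.update_self]; exact hunit σ hσ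
      · rw [Function.update_of_ne h]; exact hz n
    have hpar := parallelogram_law_with_norm ℂ D x
    rw [sum_insert hi]
    rcases le_total ‖D + x‖ ‖D - x‖ with h | h
    · refine ⟨_, hone d rfl, ?_⟩
      rw [hnew, ← hx]
      nlinarith [mul_self_le_mul_self (norm_nonneg _) h]
    · refine ⟨_, hone (-d) (by ring), ?_⟩
      rw [hnew, show (((-d : ℝ) : ℂ) * I * ω) • v i = -x by
        rw [hx, ← neg_smul]; push_cast; ring_nf, ← sub_eq_add_neg]
      nlinarith [mul_self_le_mul_self (norm_nonneg _) h]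

/-- Unit coefficients approximate every vector. -/
theorem exists_unit_approx {S : Set ℕ} (hS : PrimeRich S) (hR : 0 < R) (hR4 : R < 1 / 4)
    (g : Coords) {δ : ℝ} (hδ : 0 < δ)
    {N : ℕ} (hN : ∀ M, ∑ n ∈ Ico N M, ‖primeVec R n‖ ^ 2 ≤ δ ^ 2) :
    ∃ M₀, N ≤ M₀ ∧ ∀ M, M₀ ≤ M → ∃ z : ℕ → ℂ, (∀ n, ‖z n‖ = 1) ∧
      ‖g - ∑ n ∈ Ico N M, z n • S.indicator (primeVec R) n‖ ≤ 2 * δ := by
  classical
  obtain ⟨y, ⟨s, a, hs, ha, rfl⟩, hy⟩ :=
    Metric.mem_closure_iff.1 (dense_discSums hS hR hR4 N g) δ hδ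
  refine ⟨max N (s.sup id + 1), le_max_left _ _, fun M hM => ?_⟩
  have hsub : s ⊆ Ico N M := fun n hn => mem_Ico.2 ⟨hs n hn, by
    have := le_sup (f := id) hn
    simp only [id_eq] at this
    omega⟩
  obtain ⟨a', ha'⟩ : ∃ a' : ℕ → ℂ, a' = fun n => if n ∈ s then a n else 0 := ⟨_, rfl⟩
  have ha1 : ∀ n, ‖a' n‖ ≤ 1 := fun n => by
    rw [ha']; simp only; split_ifs <;> simp [ha n]
  have hext : ∑ n ∈ s, a n • S.indicator (primeVec R) n =
      ∑ n ∈ Ico N M, a' n • S.indicator (primeVec R) n := by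
    rw [← sum_subset hsub fun n _ hn => by simp [ha', hn]]
    exact sum_congr rfl fun n hn => by simp [ha', hn]
  obtain ⟨z, hz, hle⟩ := exists_unit_rounding (S.indicator (primeVec R)) (Ico N M) ha1
  refine ⟨z, hz, ?_⟩
  have h1 : ‖∑ n ∈ Ico N M, (z n - a' n) • S.indicator (primeVec R) n‖ ≤ δ :=
    le_of_pow_le_pow_left₀ two_ne_zero hδ.le (hle.trans ((sum_le_sum fun n _ =>
      pow_le_pow_left₀ (norm_nonneg _) (norm_indicator_le_norm_self _ n) 2).trans (hN M)))
  rw [dist_eq_norm, hext] at hy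
  simp only [sub_smul, sum_sub_distrib] at h1
  rw [norm_sub_rev] at h1
  linarith [norm_sub_le_norm_sub_add_norm_sub g (∑ n ∈ Ico N M, a' n • S.indicator (primeVec R) n)
    (∑ n ∈ Ico N M, z n • S.indicator (primeVec R) n)]

theorem norm_primePower_le {r : ℝ} {s : ℂ} (hs : ‖s‖ ≤ r) {p : ℕ} (hp : p.Prime) :
    ‖primePower s p‖ ≤ (p : ℝ) ^ (r - 3 / 4) := by
  rw [primePower, if_pos hp, Complex.norm_natCast_cpow_of_pos hp.pos]
  refine Real.rpow_le_rpow_of_exponent_le (by exact_mod_cast hp.one_le) ?_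
  simp only [Complex.neg_re, Complex.add_re, Complex.div_ofNat_re, Complex.re_ofNat]
  linarith [(abs_le.1 ((Complex.abs_re_le_norm s).trans hs)).1]

theorem norm_primePower_lt_one {s : ℂ} (hs : ‖s‖ < 1 / 4) (n : ℕ) : ‖primePower s n‖ < 1 := by
  by_cases hp : n.Prime
  · exact (norm_primePower_le le_rfl hp).trans_lt
      (Real.rpow_lt_one_of_one_lt_of_neg (by exact_mod_cast hp.one_lt) (by linarith))
  · simp [primePower, hp]

/-- **The theorem on rearrangements**, for Euler products near the line `re s = 3/4`. -/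
theorem exists_eulerPhases {r R' : ℝ} (hr : 0 ≤ r) (hr4 : r < 1 / 4) (hrR : r < R') {h : ℂ → ℂ}
    (hh : DifferentiableOn ℂ h (Metric.ball 0 R')) {ε : ℝ} (hε : 0 < ε) (N₀ : ℕ) :
    ∃ M₀, N₀ ≤ M₀ ∧ ∀ M, M₀ ≤ M → ∃ z : ℕ → ℂ, (∀ n, ‖z n‖ = 1) ∧ ∀ s : ℂ, ‖s‖ ≤ r →
      ‖∑ n ∈ range M, log (1 - z n * primePower s n)⁻¹ - h s‖ < ε := by
  obtain ⟨ρ, hrρ, hρ⟩ := exists_between (lt_min hr4 hrR)
  obtain ⟨R, hrR₁, hRρ⟩ := exists_between hrρ
  have hR0 : 0 < R := hr.trans_lt hrR₁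
  have hρ4 : ρ < 1 / 4 := hρ.trans_le (min_le_left _ _)
  have hR4 : R < 1 / 4 := hRρ.trans hρ4
  obtain ⟨q, hq⟩ : ∃ q, q = r / R := ⟨_, rfl⟩
  have hq1 : q < 1 := hq ▸ (div_lt_one hR0).2 hrR₁
  -- the cut
  have hsq := summable_norm_sq_primeVec hR0.le hR4
  have hpw := Real.summable_nat_rpow.2 (show 2 * r - 3 / 2 < -1 by linarith)
  obtain ⟨δ, hδ⟩ : ∃ δ, δ = ε * (1 - q) / 8 := ⟨_, rfl⟩
  have hδ0 : 0 < δ := hδ ▸ by
    have : 0 < 1 - q := sub_pos.2 hq1
    positivity
  obtain ⟨N₁, hN₁⟩ := eventually_atTop.1 ((((tendsto_sum_nat_add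
    fun n => ‖primeVec R n‖ ^ 2)).eventually (eventually_le_nhds (pow_pos hδ0 2))).and
    ((tendsto_sum_nat_add fun n : ℕ => (n : ℝ) ^ (2 * r - 3 / 2)).eventually
      (eventually_le_nhds (show (0 : ℝ) < ε / 8 by positivity))))
  obtain ⟨N, hN⟩ : ∃ N, N = max N₀ (max N₁ 16) := ⟨_, rfl⟩
  obtain ⟨hNv, hNp⟩ := hN₁ N (hN ▸ (le_max_left _ _).trans (le_max_right _ _))
  have htail : ∀ {F : ℕ → ℝ}, (∀ n, 0 ≤ F n) → Summable F → ∀ M,
      ∑ n ∈ Ico N M, F n ≤ ∑' n, F (n + N) := fun {F} h0 hF M => by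
    rw [sum_Ico_eq_sum_range]
    simp only [add_comm N]
    exact ((summable_nat_add_iff N).2 hF).sum_le_tsum _ fun n _ => h0 _
  -- the head
  obtain ⟨H, hH⟩ : ∃ H : ℂ → ℂ,
      H = fun s => h s - ∑ n ∈ range N, log (1 - primePower s n)⁻¹ := ⟨_, rfl⟩
  have hHd : DifferentiableOn ℂ H (Metric.ball 0 ρ) := by
    rw [hH]
    refine (hh.mono (Metric.ball_subset_ball (hρ.trans_le (min_le_right _ _)).le)).sub
      (DifferentiableOn.fun_sum fun n _ => ?_)
    intro s hs
    rw [Metric.mem_ball, dist_zero_right] at hs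
    have hlt := norm_primePower_lt_one (hs.trans hρ4) n
    have hmem : (1 - primePower s n)⁻¹ ∈ Complex.slitPlane := Or.inl (by
      have h1 := (Complex.re_le_norm (primePower s n)).trans_lt hlt
      rw [Complex.inv_re]
      exact div_pos (by simp only [Complex.sub_re, Complex.one_re]; linarith)
        (Complex.normSq_pos.2 fun h0 => by rw [← sub_eq_zero.1 h0, norm_one] at hlt; linarith))
    have hd : DifferentiableAt ℂ (fun w => primePower w n) s := by
      unfold primePower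
      split_ifs with hp
      · exact DifferentiableAt.const_cpow (by fun_prop) (Or.inl (Nat.cast_ne_zero.2 hp.ne_zero))
      · exact differentiableAt_const _
    have hne : 1 - primePower s n ≠ 0 := fun h0 => by
      rw [← sub_eq_zero.1 h0, norm_one] at hlt
      linarith
    exact (((((differentiableAt_const (1 : ℂ)).sub hd).inv hne).clog hmem)).differentiableWithinAt
  obtain ⟨g, hg⟩ := exists_evalCoord_eq hR0 hRρ hHd
  obtain ⟨M₀, hM₀N, hM₀⟩ := exists_unit_approx primeRich_univ hR0 hR4 g hδ0 (N := N) fun M =>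
    (htail (fun n => sq_nonneg _) hsq M).trans hNv
  refine ⟨M₀, (hN ▸ le_max_left N₀ _).trans hM₀N, fun M hM => ?_⟩
  obtain ⟨z, hz, hle⟩ := hM₀ M hM
  simp only [Set.indicator_univ] at hle
  refine ⟨fun n => if n < N then 1 else z n, fun n => ?_, fun s hs => ?_⟩
  · simp only
    split_ifs
    · exact norm_one
    · exact hz n
  rw [← sum_range_add_sum_Ico _ (hM₀N.trans hM),
    sum_congr rfl (g := fun n => log (1 - primePower s n)⁻¹) fun n hn => by
      simp only [mem_range.1 hn, if_true, one_mul],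
    sum_congr rfl (s₁ := Ico N M) (g := fun n => log (1 - z n * primePower s n)⁻¹)
      fun n hn => by simp only [not_lt.2 (mem_Ico.1 hn).1, if_false]]
  have hqs : ‖s / (R : ℂ)‖ ≤ q := by
    rw [norm_div, Complex.norm_real, Real.norm_of_nonneg hR0.le, hq]
    exact div_le_div_of_nonneg_right hs hR0.le
  have hlin : ‖H s - ∑ n ∈ Ico N M, z n * primePower s n‖ ≤ ε / 4 := by
    have h1 := norm_evalCoord_le hq1 hqs (g - ∑ n ∈ Ico N M, z n • primeVec R n)
    rw [evalCoord_sub (hqs.trans_lt hq1), evalCoord_sum (hqs.trans_lt hq1),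
      hg s (hs.trans_lt hrR₁)] at h1
    simp only [evalCoord_primeVec hR0] at h1
    refine h1.trans ((div_le_div_of_nonneg_right hle (sub_pos.2 hq1).le).trans (le_of_eq ?_))
    rw [hδ]
    field_simp [(sub_pos.2 hq1).ne']
    ring
  have hquad : ‖∑ n ∈ Ico N M, (log (1 - z n * primePower s n)⁻¹ - z n * primePower s n)‖ ≤
      ε / 8 := by
    refine (norm_sum_le _ _).trans ((sum_le_sum fun n hn => ?_).trans
      ((htail (fun n => by positivity) hpw M).trans hNp))
    by_cases hp : n.Prime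
    · have hn16 : 16 ≤ n :=
        (hN ▸ (le_max_right _ _).trans (le_max_right _ _)).trans (mem_Ico.1 hn).1
      have ha : ‖z n * primePower s n‖ ≤ (n : ℝ) ^ (r - 3 / 4) := by
        rw [norm_mul, hz, one_mul]
        exact norm_primePower_le hs hp
      have hhalf : (n : ℝ) ^ (r - 3 / 4) ≤ 1 / 2 := by
        refine (Real.rpow_le_rpow_of_exponent_le (by exact_mod_cast hp.one_le)
          (show r - 3 / 4 ≤ -(1 / 2) by linarith)).trans ?_
        rw [Real.rpow_neg (Nat.cast_nonneg n), ← Real.sqrt_eq_rpow, one_div]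
        refine inv_anti₀ two_pos (Real.le_sqrt_of_sq_le ?_)
        have : (16 : ℝ) ≤ n := by exact_mod_cast hn16
        linarith
      refine (Complex.norm_log_one_sub_inv_sub_self_le (by linarith)).trans ?_
      have h2 : (1 - ‖z n * primePower s n‖)⁻¹ ≤ 2 := by
        rw [inv_le_comm₀ (by linarith) two_pos]; linarith
      calc ‖z n * primePower s n‖ ^ 2 * (1 - ‖z n * primePower s n‖)⁻¹ / 2
          ≤ ‖z n * primePower s n‖ ^ 2 := by nlinarith [sq_nonneg ‖z n * primePower s n‖]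
        _ ≤ ((n : ℝ) ^ (r - 3 / 4)) ^ 2 := pow_le_pow_left₀ (norm_nonneg _) ha 2
        _ = _ := by
          rw [← Real.rpow_natCast, ← Real.rpow_mul (Nat.cast_nonneg n)]
          push_cast
          ring_nf
    · simp [primePower, hp]
      positivity
  rw [sum_sub_distrib] at hquad
  rw [hH] at hlin
  simp only at hlin
  obtain ⟨L₁, hL₁⟩ : ∃ L₁, L₁ = ∑ n ∈ range N, log (1 - primePower s n)⁻¹ := ⟨_, rfl⟩
  obtain ⟨L₂, hL₂⟩ : ∃ L₂, L₂ = ∑ n ∈ Ico N M, log (1 - z n * primePower s n)⁻¹ := ⟨_, rfl⟩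
  obtain ⟨Z, hZ⟩ : ∃ Z, Z = ∑ n ∈ Ico N M, z n * primePower s n := ⟨_, rfl⟩
  rw [← hL₁, ← hZ] at hlin
  rw [← hL₂, ← hZ] at hquad
  rw [← hL₁, ← hL₂]
  calc ‖L₁ + L₂ - h s‖ = ‖(L₂ - Z) - (h s - L₁ - Z)‖ := by ring_nf
    _ ≤ ε / 8 + ε / 4 := (norm_sub_le _ _).trans (add_le_add hquad hlin)
    _ < ε := by linarith

end FA.Voronin
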