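import Fermat.Agent.Voronin.Circle
import Fermat.Agent.Voronin.Rearrangement
import Fermat.Agent.DelaValleePoussin.Landau

/-!
# Voronin's universality theorem

For a good height `t` the phases `p^(-it)` are near those of the rearrangement theorem and
`ζ ∏_{p < M} (1 - p^(-s))` is near `1` on the whole disc around `3/4 + it`.
-/

set_option autoImplicit false

noncomputable section

namespace FA.Voronin

open Finset Filter Complex MeasureTheory
open FA.BohrCourant (dmono focus tailSum)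
open scoped Topology Real ComplexConjugate

/-- The heights where the phases are near `z` and a weight small on average is `< 1` have positive
lower density. -/
theorem exists_phase_density {P : Finset ℕ} (hP : ∀ p ∈ P, p.Prime) {z : ℕ → ℂ}
    (hz : ∀ n, ‖z n‖ = 1) {d : ℝ} (hd : 0 < d) (B : ℝ) {G : ℝ → ℝ} (hG0 : ∀ t, 0 ≤ G t)
    (hGc : Continuous G)
    (hG : ∀ K : ℕ, ∀ᶠ T : ℝ in atTop,
      ∫ t in (3 : ℝ)..T, ‖focus P K z t‖ ^ 2 * G t ≤ ((K : ℝ) + 1) ^ P.card / 4 * T) :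
    ∃ c : ℝ, 0 < c ∧ ∀ᶠ T : ℝ in atTop,
      c * T ≤ volume.real {t ∈ Set.Icc B T | G t < 1 ∧ ∀ i : P, ‖dmono i t - z i‖ < d} := by
  classical
  obtain ⟨K, hK⟩ := exists_nat_ge (32 * (P.card : ℝ) / d ^ 2)
  obtain ⟨F, hF⟩ : ∃ F, F = ((K : ℝ) + 1) ^ P.card := ⟨_, rfl⟩
  have hF0 : 0 < F := hF ▸ by positivity
  obtain ⟨B₁, hB₁⟩ : ∃ B₁, B₁ = max B 3 := ⟨_, rfl⟩
  have hB3 : 3 ≤ B₁ := hB₁ ▸ le_max_right _ _
  have hBB : B ≤ B₁ := hB₁ ▸ le_max_left _ _
  obtain ⟨W, hW⟩ : ∃ W : ℝ → ℝ, W = fun t => ‖focus P K z t‖ ^ 2 := ⟨_, rfl⟩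
  have hWc : Continuous W := hW ▸ (FA.BohrCourant.continuous_localProd P hP K _).norm.pow 2
  obtain ⟨S, hS⟩ : ∃ S : P → ℝ → ℝ,
      S = fun (i : P) t => ‖focus P K z t * (1 - conj (z i) * dmono i t)‖ ^ 2 / d ^ 2 := ⟨_, rfl⟩
  have hSc : ∀ i, Continuous (S i) := fun i => hS ▸
    (((FA.BohrCourant.continuous_localProd P hP K _).mul (continuous_const.sub
      (continuous_const.mul (FA.BohrCourant.continuous_dmono (hP i i.2).pos)))).norm.pow
        2).div_const _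
  have hS0 : ∀ i t, 0 ≤ S i t := fun i t => hS ▸ by positivity
  obtain ⟨A, hA⟩ : ∃ A : Set ℝ, A = {t | G t < 1 ∧ ∀ i : P, ‖dmono i t - z i‖ < d} := ⟨_, rfl⟩
  have hAo : IsOpen A := by
    have e : A = {t | G t < 1} ∩ ⋂ i : P, {t | ‖dmono i t - z i‖ < d} := by
      ext t
      simp [hA]
    rw [e]
    exact (isOpen_lt hGc continuous_const).inter (isOpen_iInter_of_finite fun i => isOpen_lt
      ((FA.BohrCourant.continuous_dmono (hP i i.2).pos).sub continuous_const).norm continuous_const)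
  have hge : ∀ t, W t ≤ W t * G t + ∑ i : P, S i t + A.indicator (fun _ => F ^ 2) t := by
    intro t
    have hW0 : 0 ≤ W t := hW ▸ sq_nonneg _
    have hs := sum_nonneg fun i (_ : i ∈ (univ : Finset P)) => hS0 i t
    by_cases hmem : t ∈ A
    · rw [Set.indicator_of_mem hmem]
      have : W t ≤ F ^ 2 := hW ▸ pow_le_pow_left₀ (norm_nonneg _)
        (hF ▸ FA.BohrCourant.norm_focus_le P hP hz K t) 2
      nlinarith [mul_nonneg hW0 (hG0 t)]
    rw [Set.indicator_of_notMem hmem, add_zero]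
    rcases le_or_gt 1 (G t) with hbad | hbad
    · nlinarith
    · obtain ⟨i, hi⟩ : ∃ i : P, d ≤ ‖dmono i t - z i‖ := by
        by_contra hcon
        push Not at hcon
        exact hmem (hA ▸ ⟨hbad, hcon⟩)
      refine le_add_of_nonneg_of_le (mul_nonneg hW0 (hG0 t))
        (le_trans ?_ (single_le_sum (fun j _ => hS0 j t) (mem_univ i)))
      have e : ‖1 - conj (z i) * dmono i t‖ = ‖dmono i t - z i‖ := by
        calc _ = ‖z i‖ * ‖1 - conj (z i) * dmono i t‖ := by rw [hz, one_mul]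
          _ = ‖z i - z i * conj (z i) * dmono i t‖ := by
            rw [← norm_mul]; ring_nf
          _ = _ := by
            rw [Complex.mul_conj', hz, norm_sub_rev]
            simp
      rw [hS, hW]
      simp only
      rw [norm_mul, mul_pow, mul_div_assoc, e]
      exact le_mul_of_one_le_right (sq_nonneg _)
        ((one_le_div (by positivity)).2 (pow_le_pow_left₀ hd.le hi 2))
  obtain ⟨C, hC⟩ : ∃ C, C = ∫ t in (2 : ℝ)..B₁, W t := ⟨_, rfl⟩
  have hC0 : Tendsto (fun T : ℝ => C / T) atTop (𝓝 0) := tendsto_const_nhds.div_atTop tendsto_id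
  have hdev : ∀ᶠ T : ℝ in atTop, ∀ i : P, (∫ t in (2 : ℝ)..T,
      ‖focus P K z t * (1 - conj (z i) * dmono i t)‖ ^ 2) / T ≤
        2 * ((K : ℝ) + 1) ^ (P.card - 1) * 2 :=
    eventually_all.2 fun i => (FA.BohrCourant.tendsto_focus_dev P hP hz K i).eventually
      (eventually_le_nhds (lt_mul_of_one_lt_right (by positivity) one_lt_two))
  refine ⟨1 / (4 * F), by positivity, ?_⟩
  filter_upwards [hG K, (FA.BohrCourant.tendsto_focus_sq P hP hz K).eventually
      (eventually_ge_nhds (show ((K : ℝ) + 1) ^ P.card * (7 / 8) < ((K : ℝ) + 1) ^ P.card by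
        rw [← hF]; linarith)),
    hdev, hC0.eventually (eventually_le_nhds (show (0 : ℝ) < F / 8 by positivity)),
    eventually_ge_atTop B₁] with T h1 h2 h3 h4 hTB
  have hT0 : 0 < T := by linarith
  rw [← hF] at h1 h2
  rw [le_div_iff₀ hT0] at h2
  rw [div_le_iff₀ hT0] at h4
  have hWGc : Continuous fun t => W t * G t := hWc.mul hGc
  have hsc : Continuous fun t => ∑ i : P, S i t := continuous_finsetSum _ fun i _ => hSc i
  have hsum : ∫ t in (2 : ℝ)..T, ∑ i : P, S i t ≤ F / 8 * T := by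
    rw [intervalIntegral.integral_finsetSum fun i _ => (hSc i).intervalIntegrable _ _]
    refine (sum_le_card_nsmul _ _ (4 * ((K : ℝ) + 1) ^ (P.card - 1) * T / d ^ 2)
      fun i _ => ?_).trans ?_
    · rw [hS, intervalIntegral.integral_div]
      refine div_le_div_of_nonneg_right (((div_le_iff₀ hT0).1 (h3 i)).trans (le_of_eq ?_))
        (by positivity)
      ring
    · rw [card_univ, Fintype.card_coe, nsmul_eq_mul]
      rcases Nat.eq_zero_or_pos P.card with h0 | h0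
      · rw [h0, Nat.cast_zero, zero_mul]
        positivity
      · have hsplit : F = ((K : ℝ) + 1) ^ (P.card - 1) * ((K : ℝ) + 1) := by
          rw [hF, ← pow_succ, Nat.sub_add_cancel h0]
        rw [div_le_iff₀ (by positivity)] at hK
        rw [mul_div_assoc', div_le_iff₀ (by positivity), hsplit]
        nlinarith [mul_le_mul_of_nonneg_left hK
          (show 0 ≤ ((K : ℝ) + 1) ^ (P.card - 1) * T by positivity),
          show 0 ≤ ((K : ℝ) + 1) ^ (P.card - 1) * T * d ^ 2 by positivity]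
  obtain ⟨V, hV⟩ : ∃ V, V =
      volume.real {t ∈ Set.Icc B T | G t < 1 ∧ ∀ i : P, ‖dmono i t - z i‖ < d} := ⟨_, rfl⟩
  have hAi : IntervalIntegrable (A.indicator fun _ => F ^ 2) volume B₁ T :=
    (intervalIntegrable_iff_integrableOn_Ioc_of_le hTB).2
      ((integrableOn_const (by simp)).indicator hAo.measurableSet)
  have hAV : ∫ t in B₁..T, A.indicator (fun _ => F ^ 2) t ≤ F ^ 2 * V := by
    rw [intervalIntegral.integral_of_le hTB, setIntegral_indicator hAo.measurableSet,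
      setIntegral_const, smul_eq_mul, mul_comm, hV]
    refine mul_le_mul_of_nonneg_left (measureReal_mono ?_ ?_) (sq_nonneg F)
    · intro t ht
      obtain ⟨h1, h2⟩ := ht
      rw [hA] at h2
      exact ⟨⟨hBB.trans h1.1.le, h1.2⟩, h2⟩
    · exact ((measure_mono fun t ht => ht.1).trans_lt measure_Icc_lt_top).ne
  have hle : ∫ t in B₁..T, W t ≤
      (∫ t in (3 : ℝ)..T, W t * G t) + (∫ t in (2 : ℝ)..T, ∑ i : P, S i t) + F ^ 2 * V := by
    refine (intervalIntegral.integral_mono_on hTB (hWc.intervalIntegrable _ _)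
      (((hWGc.intervalIntegrable _ _).add (hsc.intervalIntegrable _ _)).add hAi)
      fun t _ => hge t).trans ?_
    rw [intervalIntegral.integral_add ((hWGc.intervalIntegrable _ _).add
        (hsc.intervalIntegrable _ _)) hAi,
      intervalIntegral.integral_add (hWGc.intervalIntegrable _ _) (hsc.intervalIntegrable _ _)]
    refine add_le_add (add_le_add ?_ ?_) hAV
    · exact intervalIntegral.integral_mono_interval hB3 hTB le_rfl (Eventually.of_forall fun t =>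
        mul_nonneg (hW ▸ sq_nonneg _) (hG0 t)) (hWGc.intervalIntegrable _ _)
    · exact intervalIntegral.integral_mono_interval (by linarith) hTB le_rfl (Eventually.of_forall
        fun t => sum_nonneg fun i _ => hS0 i t) (hsc.intervalIntegrable _ _)
  have hall : ∫ t in (2 : ℝ)..T, W t = C + ∫ t in B₁..T, W t := by
    rw [hC, intervalIntegral.integral_add_adjacent_intervals (hWc.intervalIntegrable _ _)
      (hWc.intervalIntegrable _ _)]
  rw [hW] at hall hle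
  simp only at hall hle
  rw [← hV, one_div_mul_eq_div, div_le_iff₀ (by positivity)]
  nlinarith [mul_pos hF0 hT0]

variable (P : Finset ℕ)

/-- `∏ (1 - u p · p^(-(3/4 + s)))`. -/
def phaseProd (u : P → ℂ) (s : ℂ) : ℂ := ∏ i : P, (1 - u i * (i : ℂ) ^ (-(3 / 4 + s)))

theorem continuous_phaseProd (hP : ∀ p ∈ P, p.Prime) :
    Continuous fun x : (P → ℂ) × ℂ => phaseProd P x.1 x.2 :=
  continuous_finsetProd _ fun i _ => continuous_const.sub
    (((continuous_apply i).comp continuous_fst).mul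
      ((continuous_const.add continuous_snd).neg.const_cpow
        (Or.inl (Nat.cast_ne_zero.2 (hP i i.2).ne_zero))))

theorem devFun_eq_phaseProd (hP : ∀ p ∈ P, p.Prime) (s : ℂ) (t : ℝ) :
    devFun P (3 / 4 + t * I + s) =
      riemannZeta (3 / 4 + t * I + s) * phaseProd P (fun i => dmono i t) s - 1 := by
  rw [devFun, phaseProd]
  congr 2
  refine prod_congr rfl fun i _ => ?_
  rw [dmono, ← Complex.cpow_add _ _ (Nat.cast_ne_zero.2 (hP i i.2).ne_zero)]
  ring_nf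

/-- **Universality for exponentials.** -/
theorem exists_zeta_near_exp {r R' : ℝ} (hr : 0 ≤ r) (hr4 : r < 1 / 4) (hrR : r < R') {h : ℂ → ℂ}
    (hh : DifferentiableOn ℂ h (Metric.ball 0 R')) {ε : ℝ} (hε : 0 < ε) (T₀ : ℝ) :
    ∃ c : ℝ, 0 < c ∧ ∀ᶠ T : ℝ in atTop, c * T ≤ volume.real {t ∈ Set.Icc T₀ T | ∀ s : ℂ, ‖s‖ ≤ r →
      ‖riemannZeta (s + 3 / 4 + t * I) - cexp (h s)‖ < ε} := by
  classical
  obtain ⟨ρ, hrρ, hρ⟩ := exists_between hr4
  have hρ0 : 0 < ρ := hr.trans_lt hrρ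
  have hK : IsCompact (Metric.closedBall (0 : ℂ) r) := isCompact_closedBall 0 r
  obtain ⟨B, hB⟩ := hK.exists_bound_of_continuousOn
    ((hh.continuousOn.mono (Metric.closedBall_subset_ball hrR)).cexp)
  have hB0 : 0 ≤ B := (norm_nonneg _).trans (hB 0 (Metric.mem_closedBall_self hr))
  -- the phases
  obtain ⟨ε₁, hε₁0, hε₁1, hε₁⟩ : ∃ ε₁, 0 < ε₁ ∧ ε₁ ≤ 1 ∧ B * (2 * ε₁) ≤ ε / 4 := by
    refine ⟨min 1 (ε / 4 / (2 * (B + 1))), lt_min one_pos (by positivity), min_le_left _ _, ?_⟩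
    refine (mul_le_mul_of_nonneg_left (mul_le_mul_of_nonneg_left (min_le_right _ _)
      zero_le_two) hB0).trans ?_
    rw [← mul_assoc, mul_div_assoc', div_le_iff₀ (by positivity)]
    nlinarith
  obtain ⟨η₁, hη₁0, hη₁⟩ : ∃ η₁, 0 < η₁ ∧ η₁ * (B + ε) ≤ ε / 4 :=
    ⟨ε / 4 / (B + ε), by positivity, (div_mul_cancel₀ _ (by positivity)).le⟩
  obtain ⟨η₂, hη₂⟩ : ∃ η₂, η₂ = η₁ ^ 2 * (2 * π) * ((ρ - r) / ρ) := ⟨_, rfl⟩
  have hη₂0 : 0 < η₂ := hη₂ ▸ by
    have := sub_pos.2 hrρ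
    positivity
  obtain ⟨M₁, hM₁⟩ := eventually_atTop.1 ((FA.BohrCourant.tendsto_tailSum (3 / 4 - ρ)).eventually
    (eventually_le_nhds (show (0 : ℝ) < η₂ / (100 * π) by positivity)))
  obtain ⟨M₀, hM₀N, hM₀⟩ := exists_eulerPhases hr hr4 hrR hh hε₁0 (M₁ + 1)
  obtain ⟨z, hz, hzh⟩ := hM₀ M₀ le_rfl
  obtain ⟨P, hPd⟩ : ∃ P, P = (range M₀).filter Nat.Prime := ⟨_, rfl⟩
  have hP : ∀ p ∈ P, p.Prime := fun p hp => (mem_filter.1 (hPd ▸ hp)).2
  have hcover : ∀ n, 2 ≤ n → n ≤ M₁ → ∃ p ∈ P, p ∣ n := fun n h2 hn => by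
    refine ⟨n.minFac, hPd ▸ mem_filter.2 ⟨mem_range.2 ?_, Nat.minFac_prime (by omega)⟩,
      Nat.minFac_dvd n⟩
    have := Nat.minFac_le (show 0 < n by omega)
    omega
  -- the values at the phases
  obtain ⟨u₀, hu₀⟩ : ∃ u₀ : P → ℂ, u₀ = fun (i : P) => z i := ⟨_, rfl⟩
  have hne : ∀ s : ℂ, ‖s‖ ≤ r → ∀ i : P, 1 - u₀ i * (i : ℂ) ^ (-(3 / 4 + s)) ≠ 0 := by
    intro s hs i h0
    have h1 : ‖u₀ i * (i : ℂ) ^ (-(3 / 4 + s))‖ < 1 := by
      rw [hu₀, norm_mul, hz, one_mul]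
      have := norm_primePower_lt_one (hs.trans_lt hr4) i
      rwa [primePower, if_pos (hP i i.2)] at this
    rw [← sub_eq_zero.1 h0, norm_one] at h1
    exact lt_irrefl _ h1
  have hQ0 : ∀ s : ℂ, ‖s‖ ≤ r → phaseProd P u₀ s ≠ 0 := fun s hs =>
    prod_ne_zero_iff.2 fun i _ => hne s hs i
  have hval : ∀ s : ℂ, ‖s‖ ≤ r → ‖(phaseProd P u₀ s)⁻¹ - cexp (h s)‖ ≤ ε / 4 := by
    intro s hs
    have hlog : cexp (∑ n ∈ range M₀, log (1 - z n * primePower s n)⁻¹) =
        (phaseProd P u₀ s)⁻¹ := by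
      rw [phaseProd, ← prod_inv_distrib,
        ← prod_congr rfl fun i _ => Complex.exp_log (inv_ne_zero (hne s hs i)), ← Complex.exp_sum,
        sum_coe_sort_eq_attach, hu₀,
        sum_attach P fun n => log (1 - z n * (n : ℂ) ^ (-(3 / 4 + s)))⁻¹, hPd, sum_filter]
      congr 1
      refine sum_congr rfl fun n _ => ?_
      unfold primePower
      split_ifs <;> simp
    rw [← hlog]
    obtain ⟨a, ha⟩ : ∃ a, a = ∑ n ∈ range M₀, log (1 - z n * primePower s n)⁻¹ := ⟨_, rfl⟩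
    have hda : ‖a - h s‖ ≤ ε₁ := ha ▸ (hzh s hs).le
    rw [← ha, show cexp a - cexp (h s) = cexp (h s) * (cexp (a - h s) - 1) by
      rw [mul_sub, ← Complex.exp_add, mul_one, add_sub_cancel], norm_mul]
    exact (mul_le_mul (hB s (by simpa using hs))
      ((Complex.norm_exp_sub_one_le (hda.trans hε₁1)).trans
        (mul_le_mul_of_nonneg_left hda zero_le_two)) (norm_nonneg _) hB0).trans hε₁
  -- continuity in the phases
  obtain ⟨d, hd0, hd⟩ : ∃ d, 0 < d ∧ ∀ u : P → ℂ, (∀ i, ‖u i - u₀ i‖ < d) → ∀ s : ℂ, ‖s‖ ≤ r →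
      ‖(phaseProd P u s)⁻¹ - (phaseProd P u₀ s)⁻¹‖ < ε / 4 ∧ phaseProd P u s ≠ 0 := by
    have hev : ∀ᶠ u in 𝓝 u₀, ∀ s ∈ Metric.closedBall (0 : ℂ) r,
        ‖(phaseProd P u s)⁻¹ - (phaseProd P u₀ s)⁻¹‖ < ε / 4 ∧ phaseProd P u s ≠ 0 := by
      refine hK.eventually_forall_of_forall_eventually fun s hs => ?_
      rw [Metric.mem_closedBall, dist_zero_right] at hs
      have hc : ContinuousAt (fun x : (P → ℂ) × ℂ => phaseProd P x.1 x.2) (u₀, s) :=
        (continuous_phaseProd P hP).continuousAt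
      have hc₀ : ContinuousAt (fun x : (P → ℂ) × ℂ => phaseProd P u₀ x.2) (u₀, s) :=
        ((continuous_phaseProd P hP).comp
          ((continuous_const (y := u₀)).prodMk continuous_snd)).continuousAt
      have h1 := ((hc.inv₀ (hQ0 s hs)).sub (hc₀.inv₀ (hQ0 s hs))).norm
      refine (h1.eventually_lt_const (u := ε / 4) ?_).and (hc.eventually_ne (hQ0 s hs))
      simp
      positivity
    obtain ⟨d, hd, hd'⟩ := Metric.eventually_nhds_iff.1 hev
    exact ⟨d, hd, fun u hu s hs => hd' (y := u)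
      ((dist_pi_lt_iff hd).2 fun i => by rw [dist_eq_norm]; exact hu i) s
      (by rwa [Metric.mem_closedBall, dist_zero_right])⟩
  -- a good height
  have hρ1 : |ρ| < 1 := by rw [abs_of_pos hρ0]; linarith
  obtain ⟨c, hc, hev⟩ := exists_phase_density (P := P) hP hz hd0 (max T₀ 3)
    (G := fun t => ringMean P ρ t / η₂) (fun t => div_nonneg (ringMean_nonneg P ρ t) hη₂0.le)
    ((continuous_ringMean P hP hρ1).div_const _) fun K => by
      filter_upwards [eventually_ringMean_le P hP hρ0.le hρ K hcover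
        (show 0 < ((K : ℝ) + 1) ^ P.card * η₂ / (100 * π) by positivity),
        eventually_ge_atTop (0 : ℝ)] with T hT hT0
      simp only [← mul_div_assoc, intervalIntegral.integral_div]
      rw [div_le_iff₀ hη₂0]
      refine (hT z hz).trans ?_
      have htail := hM₁ M₁ le_rfl
      rw [le_div_iff₀ (by positivity)] at htail
      have e : ((K : ℝ) + 1) ^ P.card * η₂ / (100 * π) * (100 * π) =
          ((K : ℝ) + 1) ^ P.card * η₂ := div_mul_cancel₀ _ (by positivity)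
      nlinarith [mul_le_mul_of_nonneg_left htail
        (show 0 ≤ ((K : ℝ) + 1) ^ P.card * T by positivity),
        mul_nonneg (show 0 ≤ ((K : ℝ) + 1) ^ P.card * T by positivity) hη₂0.le]
  refine ⟨c, hc, hev.mono fun T hT => hT.trans (measureReal_mono ?_ ?_)⟩
  swap
  · exact ((measure_mono fun t ht => ht.1).trans_lt measure_Icc_lt_top).ne
  rintro t ⟨⟨hlo, htT⟩, hGt, hphase⟩
  rw [max_le_iff] at hlo
  refine ⟨⟨hlo.1, htT⟩, fun s hs => ?_⟩
  have ht3 := hlo.2
  obtain ⟨hinv, hQne⟩ := hd (fun i => dmono i t) (fun i => hu₀ ▸ hphase i) s hs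
  have hdev : ‖devFun P (3 / 4 + t * I + s)‖ ≤ η₁ := by
    refine le_of_pow_le_pow_left₀ two_ne_zero hη₁0.le
      ((norm_devFun_sq_le P hP hrρ (by linarith) ht3 hs).trans ?_)
    rw [div_lt_one hη₂0] at hGt
    refine (mul_le_mul_of_nonneg_left hGt.le (by
      have := sub_pos.2 hrρ
      positivity)).trans (le_of_eq ?_)
    rw [hη₂]
    field_simp [(sub_pos.2 hrρ).ne']
  obtain ⟨Q, hQ⟩ : ∃ Q, Q = phaseProd P (fun i => dmono i t) s := ⟨_, rfl⟩
  rw [devFun_eq_phaseProd P hP, ← hQ] at hdev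
  rw [← hQ] at hinv hQne
  have hQw : ‖Q⁻¹ - cexp (h s)‖ < ε / 2 := by
    linarith [norm_sub_le_norm_sub_add_norm_sub Q⁻¹ (phaseProd P u₀ s)⁻¹ (cexp (h s)), hval s hs]
  have hQn : ‖Q⁻¹‖ ≤ B + ε := by
    linarith [norm_le_norm_add_norm_sub' Q⁻¹ (cexp (h s)), hB s (by simpa using hs)]
  rw [show s + 3 / 4 + (t : ℂ) * I = 3 / 4 + t * I + s by ring]
  obtain ⟨Z, hZ⟩ : ∃ Z, Z = riemannZeta (3 / 4 + t * I + s) := ⟨_, rfl⟩
  rw [← hZ] at hdev ⊢
  calc ‖Z - cexp (h s)‖ = ‖(Z * Q - 1) * Q⁻¹ + (Q⁻¹ - cexp (h s))‖ := by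
        congr 1; field_simp; ring
    _ < ε / 4 + ε / 2 := by
        refine add_lt_add_of_le_of_lt ?_ hQw |>.trans_le' (norm_add_le _ _)
        rw [norm_mul]
        exact (mul_le_mul hdev hQn (norm_nonneg _) hη₁0.le).trans hη₁
    _ < ε := by linarith

/-- **Voronin's universality theorem**, with positive lower density. -/
theorem exists_zeta_universal_density {r : ℝ} (hr : 0 < r) (hr4 : r < 1 / 4) {f : ℂ → ℂ}
    (hfc : ContinuousOn f (Metric.closedBall 0 r))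
    (hfd : DifferentiableOn ℂ f (Metric.ball 0 r))
    (hf0 : ∀ s ∈ Metric.closedBall (0 : ℂ) r, f s ≠ 0) {ε : ℝ} (hε : 0 < ε) (T₀ : ℝ) :
    ∃ c : ℝ, 0 < c ∧ ∀ᶠ T : ℝ in atTop, c * T ≤ volume.real
      {t ∈ Set.Icc T₀ T | ∀ s : ℂ, ‖s‖ ≤ r → ‖riemannZeta (s + 3 / 4 + t * I) - f s‖ < ε} := by
  obtain ⟨δ, hδ0, hδ⟩ := Metric.uniformContinuousOn_iff.1
    ((isCompact_closedBall (0 : ℂ) r).uniformContinuousOn_of_continuous hfc) (ε / 2) (half_pos hε)
  obtain ⟨c, hc⟩ : ∃ c, c = max (1 / 2) (1 - δ / (2 * (r + 1))) := ⟨_, rfl⟩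
  have hc0 : 0 < c := hc ▸ lt_max_of_lt_left one_half_pos
  have hc1 : c < 1 := hc ▸ max_lt one_half_lt_one (sub_lt_self _ (by positivity))
  have hcδ : (1 - c) * r < δ := by
    have h1 : 1 - c ≤ δ / (2 * (r + 1)) := by
      linarith [hc ▸ le_max_right (1 / 2) (1 - δ / (2 * (r + 1)))]
    refine (mul_le_mul_of_nonneg_right h1 hr.le).trans_lt ?_
    rw [div_mul_eq_mul_div, div_lt_iff₀ (by positivity)]
    nlinarith
  obtain ⟨g, hg⟩ : ∃ g : ℂ → ℂ, g = fun s => f (c * s) := ⟨_, rfl⟩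
  have hrR : r < r / c := by
    rw [lt_div_iff₀ hc0]
    nlinarith
  have hmaps : ∀ s ∈ Metric.ball (0 : ℂ) (r / c), (c : ℂ) * s ∈ Metric.ball (0 : ℂ) r :=
    fun s hs => by
      rw [Metric.mem_ball, dist_zero_right] at hs ⊢
      rw [norm_mul, Complex.norm_real, Real.norm_of_nonneg hc0.le]
      rw [lt_div_iff₀ hc0] at hs
      linarith
  have hgd : DifferentiableOn ℂ g (Metric.ball 0 (r / c)) :=
    hg ▸ hfd.comp (differentiableOn_id.const_mul _) hmaps
  have hg0 : ∀ s ∈ Metric.ball (0 : ℂ) (r / c), g s ≠ 0 := fun s hs =>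
    hg ▸ hf0 _ (Metric.ball_subset_closedBall (hmaps s hs))
  obtain ⟨l, -, hld, hl⟩ := FA.DLVP.exists_log (hr.trans hrR) hgd hg0
  obtain ⟨c', hc', hev⟩ := exists_zeta_near_exp hr.le hr4 hrR
    (h := fun s => Complex.log (g 0) + l s)
    ((differentiableOn_const _).add fun s hs =>
      (hld s hs).differentiableAt.differentiableWithinAt) (half_pos hε) T₀
  refine ⟨c', hc', hev.mono fun T hT => hT.trans (measureReal_mono ?_ ?_)⟩
  swap
  · exact ((measure_mono fun t ht => ht.1).trans_lt measure_Icc_lt_top).ne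
  rintro t ⟨ht, htu⟩
  refine ⟨ht, fun s hs => ?_⟩
  have hsr : s ∈ Metric.ball (0 : ℂ) (r / c) := by
    rw [Metric.mem_ball, dist_zero_right]
    linarith
  have h1 := htu s hs
  rw [Complex.exp_add, Complex.exp_log (hg0 0 (Metric.mem_ball_self (hr.trans hrR))), ← hl s hsr]
    at h1
  have h2 : ‖g s - f s‖ < ε / 2 := by
    have h := hδ ((c : ℂ) * s) (Metric.ball_subset_closedBall (hmaps s hsr)) s
      (by rwa [Metric.mem_closedBall, dist_zero_right]) (by
        rw [dist_eq_norm, ← sub_one_mul, norm_mul, ← Complex.ofReal_one, ← Complex.ofReal_sub,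
          Complex.norm_real, Real.norm_eq_abs, abs_of_neg (sub_neg.2 hc1)]
        exact lt_of_le_of_lt (mul_le_mul_of_nonneg_left hs (by linarith)) (by linarith))
    rw [dist_eq_norm] at h
    simpa [hg] using h
  linarith [norm_sub_le_norm_sub_add_norm_sub (riemannZeta (s + 3 / 4 + t * I)) (g s) (f s)]

/-- **Voronin's universality theorem.** -/
theorem exists_zeta_universal {r : ℝ} (hr : 0 < r) (hr4 : r < 1 / 4) {f : ℂ → ℂ}
    (hfc : ContinuousOn f (Metric.closedBall 0 r))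
    (hfd : DifferentiableOn ℂ f (Metric.ball 0 r))
    (hf0 : ∀ s ∈ Metric.closedBall (0 : ℂ) r, f s ≠ 0) {ε : ℝ} (hε : 0 < ε) (T₀ : ℝ) :
    ∃ t : ℝ, T₀ ≤ t ∧ ∀ s : ℂ, ‖s‖ ≤ r → ‖riemannZeta (s + 3 / 4 + t * I) - f s‖ < ε := by
  obtain ⟨c, hc, hev⟩ := exists_zeta_universal_density hr hr4 hfc hfd hf0 hε T₀
  obtain ⟨T, hT, hT0⟩ := (hev.and (eventually_gt_atTop (0 : ℝ))).exists
  obtain ⟨t, ⟨ht, -⟩, htu⟩ := nonempty_of_measureReal_ne_zero
    (lt_of_lt_of_le (mul_pos hc hT0) hT).ne'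
  exact ⟨t, ht, htu⟩

end FA.Voronin
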