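import Fermat.Agent.Voronin.Main
import Mathlib.NumberTheory.Harmonic.ZetaAsymp
import Mathlib.NumberTheory.LSeries.Nonvanishing
import Mathlib.Analysis.Normed.Module.Connected

/-!
# Zeros on shifted discs, and Bagchi's theorem

A zero `w` of `ζ` makes `ζ w ∏ (1 - p^(-w)) - 1 = -1`, so by the mean square on circles the heights
whose disc about `3/4 + it` holds a zero have density `0`. Hence if `ζ` recurs to itself with
positive density, it has no zero with `1/2 < re s < 1`.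
-/

set_option autoImplicit false

noncomputable section

namespace FA.Voronin

open Finset Filter Complex MeasureTheory
open FA.BohrCourant (focus)
open scoped Topology Real

theorem focus_zero (P : Finset ℕ) (z : ℕ → ℂ) (t : ℝ) : focus P 0 z t = 1 := by
  simp [focus, FA.BohrCourant.localProd, FA.BohrCourant.focusCoeff]

/-- **The heights with a zero on the disc have density `0`.** -/
theorem eventually_zero_shifts_le {r : ℝ} (hr4 : r < 1 / 4) {η : ℝ} (hη : 0 < η) :
    ∀ᶠ T : ℝ in atTop, volume.real {t ∈ Set.Icc 3 T | ∃ s : ℂ, ‖s‖ ≤ r ∧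
      riemannZeta (3 / 4 + t * I + s) = 0} ≤ η * T := by
  obtain ⟨ρ, hρr, hρ4⟩ := exists_between (max_lt hr4 (show (0 : ℝ) < 1 / 4 by norm_num))
  have hrρ : r < ρ := (le_max_left _ _).trans_lt hρr
  have hρ0 : 0 < ρ := (le_max_right _ _).trans_lt hρr
  have hρ1 : |ρ| < 1 := by rw [abs_of_pos hρ0]; linarith
  obtain ⟨κ, hκ⟩ : ∃ κ, κ = ρ / (ρ - r) / (2 * π) := ⟨_, rfl⟩
  have hκ0 : 0 < κ := hκ ▸ by
    have := sub_pos.2 hrρ
    positivity
  obtain ⟨M, hM⟩ := ((FA.BohrCourant.tendsto_tailSum (3 / 4 - ρ)).eventually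
    (eventually_le_nhds (show (0 : ℝ) < η / (24 * π * κ) by positivity))).exists
  obtain ⟨P, hPd⟩ : ∃ P, P = (range (M + 1)).filter Nat.Prime := ⟨_, rfl⟩
  have hP : ∀ p ∈ P, p.Prime := fun p hp => (mem_filter.1 (hPd ▸ hp)).2
  have hcover : ∀ n, 2 ≤ n → n ≤ M → ∃ p ∈ P, p ∣ n := fun n h2 hn =>
    ⟨n.minFac, hPd ▸ mem_filter.2 ⟨mem_range.2 (Nat.lt_succ_of_le
      ((Nat.minFac_le (by omega)).trans hn)), Nat.minFac_prime (by omega)⟩, Nat.minFac_dvd n⟩
  filter_upwards [eventually_ringMean_le P hP hρ0.le hρ4 0 hcover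
    (show 0 < η / (8 * π * κ) by positivity), eventually_ge_atTop (3 : ℝ)] with T hT hT3
  have h := hT (fun _ => 1) fun _ => norm_one
  simp only [focus_zero, norm_one, one_pow, one_mul, Nat.cast_zero, zero_add, mul_one] at h
  obtain ⟨E, hE⟩ : ∃ E : Set ℝ, E = {t | 1 / κ ≤ ringMean P ρ t} := ⟨_, rfl⟩
  have hEm : MeasurableSet E :=
    hE ▸ (isClosed_le continuous_const (continuous_ringMean P hP hρ1)).measurableSet
  have hmark : 1 / κ * volume.real (Set.Ioc 3 T ∩ E) ≤ ∫ t in (3 : ℝ)..T, ringMean P ρ t := by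
    rw [mul_comm, ← smul_eq_mul, ← setIntegral_const, ← setIntegral_indicator hEm,
      ← intervalIntegral.integral_of_le hT3]
    refine intervalIntegral.integral_mono_on hT3
      ((intervalIntegrable_iff_integrableOn_Ioc_of_le hT3).2
        ((integrableOn_const (by simp)).indicator hEm))
      ((continuous_ringMean P hP hρ1).intervalIntegrable _ _) fun t _ => ?_
    refine Set.indicator_le' (fun u hu => ?_) (fun u _ => ringMean_nonneg P ρ u) t
    rw [hE] at hu
    exact hu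
  have hsub : {t ∈ Set.Icc 3 T | ∃ s : ℂ, ‖s‖ ≤ r ∧ riemannZeta (3 / 4 + t * I + s) = 0} ⊆
      (Set.Ioc 3 T ∩ E) ∪ {3} := by
    rintro t ⟨⟨ht3, htT⟩, s, hs, hz⟩
    rcases ht3.eq_or_lt with rfl | hlt
    · exact Or.inr rfl
    refine Or.inl ⟨⟨hlt, htT⟩, ?_⟩
    have h1 := norm_devFun_sq_le P hP hrρ (by linarith) ht3 hs
    rw [devFun, hz, zero_mul, zero_sub, norm_neg, norm_one, one_pow, ← hκ] at h1
    rw [hE, Set.mem_ofPred_eq, div_le_iff₀ hκ0]
    linarith
  refine (measureReal_mono hsub ((measure_mono (Set.union_subset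
    (Set.inter_subset_left.trans Set.Ioc_subset_Icc_self)
    (Set.singleton_subset_iff.2 (Set.left_mem_Icc.2 hT3)))).trans_lt
      measure_Icc_lt_top).ne).trans ?_
  refine (measureReal_union_le _ _).trans ?_
  rw [show volume.real ({3} : Set ℝ) = 0 by simp [measureReal_def], add_zero]
  have hb := hmark.trans h
  rw [le_div_iff₀ (by positivity)] at hM
  rw [div_mul_eq_mul_div, one_mul, div_le_iff₀ hκ0] at hb
  have e : η / (8 * π * κ) * (8 * π * κ) = η := div_mul_cancel₀ _ (by positivity)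
  nlinarith [mul_le_mul_of_nonneg_left hM (show 0 ≤ T by linarith)]

/-- A function near one with a zero inside and none on the circle has a zero inside. -/
theorem exists_zero_of_near {g G : ℂ → ℂ} {c : ℂ} {δ m : ℝ} (hδ : 0 < δ)
    (hG : DifferentiableOn ℂ G (Metric.closedBall c δ)) (hg : g c = 0)
    (hm : ∀ z ∈ Metric.sphere c δ, m ≤ ‖g z‖)
    (hnear : ∀ z ∈ Metric.closedBall c δ, ‖G z - g z‖ < m / 2) :
    ∃ z ∈ Metric.closedBall c δ, G z = 0 := by
  by_contra! hne
  have hd : DiffContOnCl ℂ (fun z => (G z)⁻¹) (Metric.ball c δ) := by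
    refine DifferentiableOn.diffContOnCl ?_
    rw [closure_ball _ hδ.ne']
    exact hG.inv hne
  have hc := hnear c (Metric.mem_closedBall_self hδ.le)
  rw [hg, sub_zero] at hc
  have hGc : 0 < ‖G c‖ := norm_pos_iff.2 (hne c (Metric.mem_closedBall_self hδ.le))
  have hb : ∀ z ∈ Metric.sphere c δ, ‖(G z)⁻¹‖ ≤ (m / 2)⁻¹ := fun z hz => by
    rw [norm_inv]
    refine inv_anti₀ (by linarith) ?_
    linarith [hm z hz, hnear z (Metric.sphere_subset_closedBall hz),
      norm_le_norm_add_norm_sub (G z) (g z)]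
  have h := Complex.norm_le_of_forall_mem_frontier_norm_le Metric.isBounded_ball hd
    (C := (m / 2)⁻¹) (by rwa [frontier_ball _ hδ.ne']) (z := c)
    (by rw [closure_ball _ hδ.ne']; exact Metric.mem_closedBall_self hδ.le)
  rw [norm_inv, inv_le_inv₀ hGc (by linarith)] at h
  linarith

/-- The zeros of `ζ` are isolated. -/
theorem eventually_zeta_ne_zero {w : ℂ} (hw : w ≠ 1) :
    ∀ᶠ z in 𝓝[≠] w, riemannZeta z ≠ 0 := by
  have hd : DifferentiableOn ℂ riemannZeta ({1}ᶜ : Set ℂ) :=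
    fun z hz => (differentiableAt_riemannZeta hz).differentiableWithinAt
  have han := hd.analyticOnNhd isOpen_compl_singleton
  rcases (han w hw).eventually_eq_zero_or_eventually_ne_zero with h | h
  · exfalso
    have h2 := han.eqOn_zero_of_preconnected_of_eventuallyEq_zero
      (isConnected_compl_singleton_of_one_lt_rank (by simp) 1).isPreconnected hw h
      (show (2 : ℂ) ∈ ({1}ᶜ : Set ℂ) by simp)
    exact riemannZeta_ne_zero_of_one_le_re (show 1 ≤ (2 : ℂ).re by simp) h2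
  · exact h

/-- **A recurrence with positive density on every disc excludes zeros right of the critical
line.** -/
theorem zeta_ne_zero_of_recurrent
    (hrec : ∀ γ r ε : ℝ, 0 < r → r < 1 / 4 → 0 < ε → ∃ c : ℝ, 0 < c ∧ ∀ᶠ T : ℝ in atTop,
      c * T ≤ volume.real {τ ∈ Set.Icc 0 T | ∀ s : ℂ, ‖s‖ ≤ r →
        ‖riemannZeta (s + 3 / 4 + γ * I + τ * I) - riemannZeta (s + 3 / 4 + γ * I)‖ < ε})
    {w : ℂ} (h0 : 1 / 2 < w.re) (h1 : w.re < 1) : riemannZeta w ≠ 0 := by
  intro hw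
  obtain ⟨r, hr1, hr4⟩ := exists_between (show |w.re - 3 / 4| < 1 / 4 by
    rw [abs_lt]; constructor <;> linarith)
  have hr0 : 0 < r := (abs_nonneg _).trans_lt hr1
  obtain ⟨s₀, hs₀⟩ : ∃ s₀ : ℂ, s₀ = ((w.re - 3 / 4 : ℝ) : ℂ) := ⟨_, rfl⟩
  have hws : s₀ + 3 / 4 + w.im * I = w := by
    rw [hs₀]
    refine Complex.ext ?_ ?_ <;> simp
  have hne1 : w ≠ 1 := fun h => by rw [h] at h1; simp at h1
  obtain ⟨δ', hδ', hiso⟩ :=
    Metric.eventually_nhds_iff.1 (eventually_nhdsWithin_iff.1 (eventually_zeta_ne_zero hne1))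
  obtain ⟨δ, hδ⟩ : ∃ δ, δ = min (δ' / 2) (r - |w.re - 3 / 4|) := ⟨_, rfl⟩
  have hδ0 : 0 < δ := hδ ▸ lt_min (half_pos hδ') (sub_pos.2 hr1)
  have hball : ∀ z ∈ Metric.closedBall s₀ δ, ‖z‖ ≤ r := fun z hz => by
    rw [Metric.mem_closedBall, dist_eq_norm] at hz
    have := hδ ▸ min_le_right (δ' / 2) (r - |w.re - 3 / 4|)
    have e : ‖s₀‖ = |w.re - 3 / 4| := by rw [hs₀, Complex.norm_real, Real.norm_eq_abs]
    linarith [norm_le_norm_add_norm_sub' z s₀]
  have hre : ∀ (z : ℂ) (a : ℝ), ‖z‖ ≤ r → z + 3 / 4 + a * I ≠ 1 := fun z a hz h => by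
    have h' := congrArg Complex.re h
    simp at h'
    linarith [(abs_le.1 ((Complex.abs_re_le_norm z).trans hz)).2]
  obtain ⟨g, hg⟩ : ∃ g : ℂ → ℂ, g = fun z => riemannZeta (z + 3 / 4 + w.im * I) := ⟨_, rfl⟩
  have hgc : ContinuousOn g (Metric.sphere s₀ δ) := fun z hz => hg ▸
    ((differentiableAt_riemannZeta (hre z _ (hball z (Metric.sphere_subset_closedBall hz)))).comp z
      ((differentiableAt_id.add_const _).add_const _)).continuousAt.continuousWithinAt
  obtain ⟨z₀, hz₀, hmin⟩ := (isCompact_sphere s₀ δ).exists_isMinOn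
    (NormedSpace.sphere_nonempty.2 hδ0.le) hgc.norm
  have hgne : g z₀ ≠ 0 := by
    rw [Metric.mem_sphere, dist_eq_norm] at hz₀
    have hd : ‖z₀ + 3 / 4 + w.im * I - w‖ = δ := by
      nth_rw 2 [← hws]
      rw [← hz₀]
      congr 1
      ring
    rw [hg]
    refine hiso (y := z₀ + 3 / 4 + w.im * I) ?_ fun hmem => ?_
    · rw [dist_eq_norm, hd]
      exact lt_of_le_of_lt (hδ ▸ min_le_left _ _) (half_lt_self hδ')
    · rw [hmem, sub_self, norm_zero] at hd
      exact hδ0.ne hd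
  obtain ⟨c, hc, hev⟩ := hrec w.im r (‖g z₀‖ / 2) hr0 hr4 (half_pos (norm_pos_iff.2 hgne))
  obtain ⟨T, hT, hzero, hT0⟩ := (hev.and (((tendsto_atTop_add_const_right atTop w.im
    tendsto_id).eventually (eventually_zero_shifts_le hr4 (show 0 < c / 4 by positivity))).and
    (eventually_gt_atTop (max (|w.im|) ((|w.im| + 3) * (2 / c)))))).exists
  simp only [id_eq] at hzero
  rw [max_lt_iff, ← lt_div_iff₀ (by positivity), div_div_eq_mul_div] at hT0
  have hT1 : |w.im| + 3 < c / 2 * T := by linarith [hT0.2]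
  obtain ⟨A, hA⟩ : ∃ A : Set ℝ,
      A = {t ∈ Set.Icc 3 (T + w.im) | ∃ s : ℂ, ‖s‖ ≤ r ∧ riemannZeta (3 / 4 + t * I + s) = 0} :=
    ⟨_, rfl⟩
  rw [← hA] at hzero
  obtain ⟨A', hA'⟩ : ∃ A' : Set ℝ, A' = (fun τ => τ + w.im) ⁻¹' A := ⟨_, rfl⟩
  have hA'r : volume.real A' = volume.real A := by
    rw [hA', measureReal_def, measureReal_def, measure_preimage_add_right]
  have hAfin : volume A' ≠ ⊤ := by
    rw [hA', measure_preimage_add_right]
    exact ((measure_mono fun t ht => (hA ▸ ht).1).trans_lt measure_Icc_lt_top).ne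
  have hsub : {τ ∈ Set.Icc 0 T | ∀ s : ℂ, ‖s‖ ≤ r →
      ‖riemannZeta (s + 3 / 4 + w.im * I + τ * I) - riemannZeta (s + 3 / 4 + w.im * I)‖ <
        ‖g z₀‖ / 2} ⊆ A' ∪ Set.Icc 0 (|w.im| + 3) := by
    rintro τ ⟨⟨hτ0, hτT⟩, hτ⟩
    by_cases hsmall : τ ≤ |w.im| + 3
    · exact Or.inr ⟨hτ0, hsmall⟩
    rw [not_le] at hsmall
    obtain ⟨z, hz, hz0⟩ := exists_zero_of_near hδ0 (g := g) (m := ‖g z₀‖)
      (G := fun z => riemannZeta (z + 3 / 4 + w.im * I + τ * I))
      (fun z hz => ((differentiableAt_riemannZeta (by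
          have := hre z (w.im + τ) (hball z hz)
          push_cast at this
          rwa [add_mul, ← add_assoc] at this)).comp z
        (((differentiableAt_id.add_const _).add_const _).add_const _)).differentiableWithinAt)
      (by rw [hg]; simpa [hws] using hw) (fun z hz => hmin hz)
      (fun z hz => by rw [hg] at *; exact hτ z (hball z hz))
    refine Or.inl ?_
    rw [hA', Set.mem_preimage, hA]
    refine ⟨⟨by linarith [neg_abs_le w.im], by linarith⟩, z, hball z hz, ?_⟩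
    rw [← hz0]
    push_cast
    ring_nf
  have h := hT.trans ((measureReal_mono hsub
    ((measure_union_lt_top hAfin.lt_top measure_Icc_lt_top).ne)).trans (measureReal_union_le _ _))
  rw [hA'r, Real.volume_real_Icc_of_le (by positivity)] at h
  nlinarith [le_abs_self w.im]

/-- RH from the absence of zeros in `1/2 < re s < 1`. -/
theorem zeta_ne_zero_right {w : ℂ} (h : ∀ w : ℂ, 1 / 2 < w.re → w.re < 1 → riemannZeta w ≠ 0)
    (h0 : 1 / 2 < w.re) : riemannZeta w ≠ 0 :=
  (lt_or_ge w.re 1).elim (h w h0) fun h1 => riemannZeta_ne_zero_of_one_le_re h1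

end FA.Voronin
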