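import Fermat.Agent.BohrCourant.Main
import Mathlib.Analysis.Complex.CauchyIntegral

/-!
# `ζ ∏ (1 - p^(-s)) - 1` on small discs along `re s = 3/4`

By Cauchy's formula the square of its supremum on `‖s‖ ≤ r` is at most a multiple of its mean
square on `‖s‖ = ρ`; moving the weight from the height `t + ρ sin θ` to `t` only turns the phases,
so the weighted mean of that is small, as on the vertical lines.
-/

set_option autoImplicit false

noncomputable section

namespace FA.Voronin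

open Finset Filter Complex MeasureTheory
open FA.BohrCourant (dmono focus lineCoeff invEuler tailSum)
open scoped Topology Real ComplexConjugate

variable (P : Finset ℕ)

/-- `ζ w ∏ (1 - p^(-w)) - 1`. -/
def devFun (w : ℂ) : ℂ := riemannZeta w * ∏ i : P, (1 - (i : ℂ) ^ (-w)) - 1

theorem differentiableAt_devFun (hP : ∀ p ∈ P, p.Prime) {w : ℂ} (hw : w ≠ 1) :
    DifferentiableAt ℂ (devFun P) w := by
  refine ((differentiableAt_riemannZeta hw).mul ?_).sub_const 1
  refine DifferentiableAt.fun_finsetProd fun i _ => (differentiableAt_const _).sub ?_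
  exact differentiableAt_id.neg.const_cpow (Or.inl (Nat.cast_ne_zero.2 (hP i i.2).ne_zero))

theorem devFun_vert (hP : ∀ p ∈ P, p.Prime) (σ t : ℝ) :
    devFun P (σ + t * I) = riemannZeta (σ + t * I) * invEuler P σ t - 1 := by
  rw [devFun, invEuler]
  congr 2
  refine prod_congr rfl fun i _ => ?_
  rw [FA.BohrCourant.lineTerm_eq (hP i i.2).pos, one_div, Complex.cpow_neg]

/-- The point `3/4 + ρ e^(iθ)` moved to height `max t 3`. -/
def ringPoint (ρ t θ : ℝ) : ℂ := 3 / 4 + ((max t 3 : ℝ) : ℂ) * I + circleMap 0 ρ θ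

theorem ringPoint_ne_one {ρ : ℝ} (hρ : |ρ| < 1) (t θ : ℝ) : ringPoint ρ t θ ≠ 1 := fun h => by
  have h1 := congrArg Complex.im h
  have h2 : |(circleMap 0 ρ θ).im| ≤ |ρ| :=
    (Complex.abs_im_le_norm _).trans (le_of_eq (norm_circleMap_zero ρ θ))
  rw [abs_le] at h2
  simp only [ringPoint, Complex.add_im, Complex.div_ofNat_im, Complex.im_ofNat, Complex.mul_im,
    Complex.ofReal_re, Complex.ofReal_im, Complex.I_re, Complex.I_im, mul_one, zero_mul, add_zero,
    zero_div, zero_add, Complex.one_im] at h1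
  linarith [le_max_right t 3, h2.1]

/-- The mean square on the circle. -/
def ringMean (ρ t : ℝ) : ℝ := ∫ θ in (0 : ℝ)..2 * π, ‖devFun P (ringPoint ρ t θ)‖ ^ 2

theorem continuous_devFun_ring (hP : ∀ p ∈ P, p.Prime) {ρ : ℝ} (hρ : |ρ| < 1) :
    Continuous (Function.uncurry fun t θ => ‖devFun P (ringPoint ρ t θ)‖ ^ 2) := by
  refine (Continuous.norm ?_).pow 2
  have hc : Continuous fun x : ℝ × ℝ => ringPoint ρ x.1 x.2 :=
    (continuous_const.add ((Complex.continuous_ofReal.comp
      (continuous_fst.max continuous_const)).mul continuous_const)).add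
      ((continuous_circleMap 0 ρ).comp continuous_snd)
  exact continuous_iff_continuousAt.2 fun x =>
    (differentiableAt_devFun P hP (ringPoint_ne_one hρ x.1 x.2)).continuousAt.comp
      (f := fun x : ℝ × ℝ => ringPoint ρ x.1 x.2) hc.continuousAt

theorem continuous_ringMean (hP : ∀ p ∈ P, p.Prime) {ρ : ℝ} (hρ : |ρ| < 1) :
    Continuous (ringMean P ρ) :=
  intervalIntegral.continuous_parametric_intervalIntegral_of_continuous'
    (continuous_devFun_ring P hP hρ) 0 (2 * π)

theorem ringMean_nonneg (ρ t : ℝ) : 0 ≤ ringMean P ρ t :=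
  intervalIntegral.integral_nonneg Real.two_pi_pos.le fun _ _ => sq_nonneg _

/-- **The supremum is bounded by the mean square on the circle.** -/
theorem norm_devFun_sq_le (hP : ∀ p ∈ P, p.Prime) {r ρ : ℝ} (hr : r < ρ) (hρ : ρ < 1) {t : ℝ}
    (ht : 3 ≤ t) {s : ℂ} (hs : ‖s‖ ≤ r) :
    ‖devFun P (3 / 4 + t * I + s)‖ ^ 2 ≤ ρ / (ρ - r) / (2 * π) * ringMean P ρ t := by
  have hρ0 : 0 < ρ := ((norm_nonneg s).trans hs).trans_lt hr
  have hd : DifferentiableOn ℂ (fun z => devFun P (3 / 4 + t * I + z) ^ 2)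
      (Metric.closedBall 0 ρ) := fun z hz => by
    rw [Metric.mem_closedBall, dist_zero_right] at hz
    refine (((differentiableAt_devFun P hP fun h => ?_).comp z
      (differentiableAt_id.const_add _)).pow 2).differentiableWithinAt
    have h1 := congrArg Complex.im h
    simp at h1
    linarith [(abs_le.1 ((Complex.abs_im_le_norm z).trans hz)).1]
  have hcauchy := hd.circleIntegral_sub_inv_smul (w := s)
    (Metric.mem_ball.2 (by rw [dist_zero_right]; linarith))
  have hring := continuous_devFun_ring P hP (show |ρ| < 1 by rwa [abs_of_pos hρ0])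
  have hint : Continuous fun θ : ℝ => ‖devFun P (ringPoint ρ t θ)‖ ^ 2 :=
    Continuous.comp (g := Function.uncurry fun t θ => ‖devFun P (ringPoint ρ t θ)‖ ^ 2)
      (f := fun θ : ℝ => (t, θ)) hring (Continuous.prodMk_right t)
  have hkey : 2 * π * ‖devFun P (3 / 4 + t * I + s)‖ ^ 2 ≤ ρ / (ρ - r) * ringMean P ρ t := by
    have e : ‖(2 * π * I : ℂ) • devFun P (3 / 4 + t * I + s) ^ 2‖ =
        2 * π * ‖devFun P (3 / 4 + t * I + s)‖ ^ 2 := by
      simp [norm_pow, abs_of_pos Real.pi_pos]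
    rw [← e, ← hcauchy, circleIntegral, ringMean, ← intervalIntegral.integral_const_mul]
    refine intervalIntegral.norm_integral_le_of_norm_le Real.two_pi_pos.le
      (Eventually.of_forall fun θ _ => ?_) ((hint.const_mul _).intervalIntegrable _ _)
    rw [deriv_circleMap, smul_eq_mul, smul_eq_mul, norm_mul, norm_mul, norm_mul, Complex.norm_I,
      norm_circleMap_zero, abs_of_pos hρ0, norm_inv, norm_pow, mul_one, ← mul_assoc,
      ← div_eq_mul_inv, ringPoint, max_eq_left ht]
    refine mul_le_mul_of_nonneg_right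
      (div_le_div_of_nonneg_left hρ0.le (sub_pos.2 hr) ?_) (sq_nonneg _)
    refine le_trans ?_ (norm_sub_norm_le _ _)
    rw [norm_circleMap_zero, abs_of_pos hρ0]
    linarith
  calc ‖devFun P (3 / 4 + t * I + s)‖ ^ 2
      = 2 * π * ‖devFun P (3 / 4 + t * I + s)‖ ^ 2 / (2 * π) := by
        field_simp
    _ ≤ ρ / (ρ - r) * ringMean P ρ t / (2 * π) :=
        div_le_div_of_nonneg_right hkey Real.two_pi_pos.le
    _ = _ := by ring

theorem focus_shift (hP : ∀ p ∈ P, p.Prime) (K : ℕ) {z : ℕ → ℂ} (hz : ∀ n, ‖z n‖ = 1) (u : ℝ) :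
    ∃ z' : ℕ → ℂ, (∀ n, ‖z' n‖ = 1) ∧ ∀ t, focus P K z' (t + u) = focus P K z t := by
  refine ⟨fun n => if n ∈ P then z n * dmono n u else 1, fun n => ?_, fun t => ?_⟩
  · simp only
    split_ifs with h
    · rw [norm_mul, hz, FA.BohrCourant.norm_dmono (hP n h).pos, one_mul]
    · exact norm_one
  · simp only [focus, FA.BohrCourant.localProd, FA.BohrCourant.focusCoeff, ← mul_pow]
    refine prod_congr rfl fun i _ => sum_congr rfl fun e _ => ?_
    congr 1
    rw [if_pos i.2, map_mul, mul_assoc]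
    congr 1
    have hn : ((i : ℕ) : ℂ) ≠ 0 := Nat.cast_ne_zero.2 (hP i i.2).ne_zero
    have hadd : dmono i (t + u) = dmono i t * dmono i u := by
      rw [dmono, dmono, dmono, ← Complex.cpow_add _ _ hn]
      push_cast
      ring_nf
    rw [hadd, mul_left_comm, Complex.conj_mul', FA.BohrCourant.norm_dmono (hP i i.2).pos]
    simp

/-- **The weighted mean over the circle.** -/
theorem eventually_ringMean_le (hP : ∀ p ∈ P, p.Prime) {ρ : ℝ} (hρ0 : 0 ≤ ρ) (hρ : ρ < 1 / 4)
    (K : ℕ) {M : ℕ} (hM : ∀ n, 2 ≤ n → n ≤ M → ∃ p ∈ P, p ∣ n) {η : ℝ} (hη : 0 < η) :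
    ∀ᶠ T : ℝ in atTop, ∀ z : ℕ → ℂ, (∀ n, ‖z n‖ = 1) →
      ∫ t in (3 : ℝ)..T, ‖focus P K z t‖ ^ 2 * ringMean P ρ t ≤
        4 * π * (3 * ((K : ℝ) + 1) ^ P.card * tailSum (3 / 4 - ρ) M + η) * T := by
  filter_upwards [(tendsto_atTop_add_const_right atTop (1 : ℝ) tendsto_id).eventually
    (FA.BohrCourant.eventually_zetaDev_le_uniform P hP
      (show (1 : ℝ) / 2 < 3 / 4 - ρ by linarith) K hM hη), eventually_ge_atTop (3 : ℝ)]
    with T hdev hT z hz
  simp only [id_eq] at hdev
  obtain ⟨C, hC⟩ : ∃ C, C = 3 * ((K : ℝ) + 1) ^ P.card * tailSum (3 / 4 - ρ) M + η := ⟨_, rfl⟩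
  have hC0 : 0 ≤ C := hC ▸ by
    have := FA.BohrCourant.tailSum_nonneg (3 / 4 - ρ) M
    positivity
  have hρ1 : |ρ| < 1 := by rw [abs_of_nonneg hρ0]; linarith
  obtain ⟨Φ, hΦ⟩ : ∃ Φ : ℝ → ℝ → ℝ,
      Φ = fun t θ => ‖focus P K z t‖ ^ 2 * ‖devFun P (ringPoint ρ t θ)‖ ^ 2 := ⟨_, rfl⟩
  have hΦc : Continuous (Function.uncurry Φ) := hΦ ▸
    (((FA.BohrCourant.continuous_localProd P hP K _).norm.pow 2).comp continuous_fst).mul
      (continuous_devFun_ring P hP hρ1)
  have hin : ∀ θ : ℝ, ∫ t in (3 : ℝ)..T, Φ t θ ≤ C * (T + 1) := by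
    intro θ
    obtain ⟨z', hz', hfoc⟩ := focus_shift P hP K hz (ρ * Real.sin θ)
    obtain ⟨σ, hσ⟩ : ∃ σ, σ = 3 / 4 + ρ * Real.cos θ := ⟨_, rfl⟩
    obtain ⟨hc1, hc2⟩ := abs_le.1 (Real.abs_cos_le_one θ)
    obtain ⟨hs1, hs2⟩ := abs_le.1 (Real.abs_sin_le_one θ)
    have hi := FA.BohrCourant.intervalIntegrable_zetaDev P hP σ z' K
      (show (2 : ℝ) ≤ T + 1 by linarith)
    have h := hdev σ z' (by rw [hσ]; nlinarith) (by rw [hσ]; nlinarith) hz'
    rw [← hC, div_le_iff₀ (by linarith)] at h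
    rw [intervalIntegral.integral_congr (g := fun t => ‖focus P K z' (t + ρ * Real.sin θ) *
      (riemannZeta ((σ : ℂ) + ((t + ρ * Real.sin θ : ℝ) : ℂ) * I) *
        invEuler P σ (t + ρ * Real.sin θ) - 1)‖ ^ 2) fun t ht => ?_,
      intervalIntegral.integral_comp_add_right (fun v => ‖focus P K z' v *
        (riemannZeta ((σ : ℂ) + (v : ℂ) * I) * invEuler P σ v - 1)‖ ^ 2)]
    · exact (intervalIntegral.integral_mono_interval (by nlinarith) (by linarith) (by nlinarith)
        (Eventually.of_forall fun _ => sq_nonneg _) hi).trans h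
    · rw [Set.uIcc_of_le hT] at ht
      simp only [hΦ, hfoc, ← devFun_vert P hP, norm_mul, mul_pow]
      congr 4
      rw [ringPoint, max_eq_left ht.1, hσ]
      refine Complex.ext ?_ ?_ <;> simp [circleMap, Complex.exp_mul_I, ← Complex.ofReal_cos,
        ← Complex.ofReal_sin]
  have hswap : ∫ t in (3 : ℝ)..T, ‖focus P K z t‖ ^ 2 * ringMean P ρ t =
      ∫ θ in (0 : ℝ)..2 * π, ∫ t in (3 : ℝ)..T, Φ t θ := by
    rw [← intervalIntegral_intervalIntegral_swap
      ((hΦc.continuousOn.integrableOn_compact (isCompact_uIcc.prod isCompact_uIcc)).mono_set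
        (Set.prod_mono Set.uIoc_subset_uIcc Set.uIoc_subset_uIcc))]
    simp only [ringMean, ← intervalIntegral.integral_const_mul, hΦ]
  rw [hswap, ← hC]
  refine (intervalIntegral.integral_mono_on Real.two_pi_pos.le
    ((intervalIntegral.continuous_parametric_intervalIntegral_of_continuous'
      (f := fun θ t => Φ t θ) (hΦc.comp continuous_swap) 3 T).intervalIntegrable _ _)
    intervalIntegrable_const fun θ _ => hin θ).trans ?_
  rw [intervalIntegral.integral_const, smul_eq_mul, sub_zero]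
  nlinarith [mul_nonneg (mul_nonneg Real.pi_pos.le hC0) (show 0 ≤ T - 1 by linarith)]

end FA.Voronin
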