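import Mathlib.Analysis.SpecialFunctions.Gamma.Basic
import Mathlib.MeasureTheory.Integral.ExpDecay
import Mathlib.Analysis.Complex.LocallyUniformLimit
import Mathlib.Analysis.Complex.Liouville
import Mathlib.Analysis.Analytic.IsolatedZeros
import Mathlib.Analysis.Calculus.ParametricIntegral
import Mathlib.Analysis.Complex.CauchyIntegral
import Mathlib.Analysis.Convex.Topology
import Mathlib.Analysis.Normed.Group.Tannery

/-!
# No entire function of type `R` decays like `e^(-βx)` with `β > R`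

For `‖b k‖ ≤ B R ^ k` the Laplace transform of `∑ b k x ^ k / k!` continues `∑ b k / w ^ (k + 1)`
from `‖w‖ > R` to `re w > -β`; the two together are an entire function tending to `0` at infinity.
-/

set_option autoImplicit false

noncomputable section

namespace FA.Voronin

open Filter Complex MeasureTheory Set
open scoped Topology Real

/-- `∑ b k z ^ k / k!`. -/
def expSeries (b : ℕ → ℂ) (z : ℂ) : ℂ := ∑' k, b k * z ^ k / k.factorial

/-- `∑ b k / w ^ (k + 1)`. -/
def borelSum (b : ℕ → ℂ) (w : ℂ) : ℂ := ∑' k, b k * w⁻¹ ^ (k + 1)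

/-- The Laplace transform of `expSeries b`. -/
def laplaceInt (b : ℕ → ℂ) (w : ℂ) : ℂ :=
  ∫ x in Set.Ioi (0 : ℝ), expSeries b x * cexp (-(w * x))

variable {b : ℕ → ℂ} {B R : ℝ}

theorem norm_expTerm_le (hb : ∀ k, ‖b k‖ ≤ B * R ^ k) (z : ℂ) (k : ℕ) :
    ‖b k * z ^ k / k.factorial‖ ≤ B * ((R * ‖z‖) ^ k / k.factorial) := by
  rw [norm_div, norm_mul, norm_pow, Complex.norm_natCast, mul_pow, ← mul_div_assoc, ← mul_assoc]
  exact div_le_div_of_nonneg_right (mul_le_mul_of_nonneg_right (hb k) (by positivity))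
    (Nat.cast_nonneg _)

theorem nonneg_of_bound (hb : ∀ k, ‖b k‖ ≤ B * R ^ k) : 0 ≤ B := by
  simpa using (norm_nonneg _).trans (hb 0)

theorem summable_norm_expTerm (hb : ∀ k, ‖b k‖ ≤ B * R ^ k) (z : ℂ) :
    Summable fun k => ‖b k * z ^ k / k.factorial‖ :=
  Summable.of_nonneg_of_le (fun _ => norm_nonneg _) (norm_expTerm_le hb z)
    ((Real.summable_pow_div_factorial _).mul_left B)

theorem norm_expSeries_le (hR : 0 ≤ R) (hb : ∀ k, ‖b k‖ ≤ B * R ^ k) (z : ℂ) :
    ‖expSeries b z‖ ≤ B * Real.exp (R * ‖z‖) := by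
  refine (norm_tsum_le_tsum_norm (summable_norm_expTerm hb z)).trans
    (Real.tsum_le_of_sum_range_le (fun _ => norm_nonneg _) fun n => ?_)
  refine (Finset.sum_le_sum fun k _ => norm_expTerm_le hb z k).trans ?_
  rw [← Finset.mul_sum]
  exact mul_le_mul_of_nonneg_left (Real.sum_le_exp_of_nonneg (by positivity) n) (nonneg_of_bound hb)

theorem differentiable_expSeries (hR : 0 ≤ R) (hb : ∀ k, ‖b k‖ ≤ B * R ^ k) :
    Differentiable ℂ (expSeries b) := fun z => by
  have hU : IsOpen (Metric.ball (0 : ℂ) (‖z‖ + 1)) := Metric.isOpen_ball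
  refine (differentiableOn_tsum_of_summable_norm
    ((Real.summable_pow_div_factorial (R * (‖z‖ + 1))).mul_left B) (fun k => by fun_prop) hU
    fun k w hw => ?_).differentiableAt (hU.mem_nhds (by simp))
  rw [Metric.mem_ball, dist_zero_right] at hw
  refine (norm_expTerm_le hb w k).trans (mul_le_mul_of_nonneg_left ?_ (nonneg_of_bound hb))
  gcongr

theorem summable_borelTerm (hR : 0 ≤ R) (hb : ∀ k, ‖b k‖ ≤ B * R ^ k) {w : ℂ} (hw : R < ‖w‖) :
    Summable fun k => ‖b k * w⁻¹ ^ (k + 1)‖ := by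
  have hw0 : 0 < ‖w‖ := hR.trans_lt hw
  refine Summable.of_nonneg_of_le (fun _ => norm_nonneg _) (fun k => ?_)
    ((summable_geometric_of_lt_one (by positivity)
      ((div_lt_one hw0).2 hw)).mul_left (B * ‖w‖⁻¹))
  rw [norm_mul, norm_pow, norm_inv]
  refine (mul_le_mul_of_nonneg_right (hb k) (by positivity)).trans (le_of_eq ?_)
  rw [div_pow, pow_succ, inv_pow]
  ring

theorem norm_borelSum_le (hR : 0 ≤ R) (hb : ∀ k, ‖b k‖ ≤ B * R ^ k) {w : ℂ} (hw : R < ‖w‖) :
    ‖borelSum b w‖ ≤ B / (‖w‖ - R) := by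
  have hw0 : 0 < ‖w‖ := hR.trans_lt hw
  have hq : R / ‖w‖ < 1 := (div_lt_one hw0).2 hw
  refine (norm_tsum_le_tsum_norm (summable_borelTerm hR hb hw)).trans ?_
  refine ((summable_borelTerm hR hb hw).tsum_le_tsum (fun k => ?_)
    ((summable_geometric_of_lt_one (by positivity) hq).mul_left (B * ‖w‖⁻¹))).trans (le_of_eq ?_)
  · rw [norm_mul, norm_pow, norm_inv]
    refine (mul_le_mul_of_nonneg_right (hb k) (by positivity)).trans (le_of_eq ?_)
    rw [div_pow, pow_succ, inv_pow]
    ring
  · rw [tsum_mul_left, tsum_geometric_of_lt_one (by positivity) hq]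
    have : ‖w‖ - R ≠ 0 := (sub_pos.2 hw).ne'
    field_simp

theorem differentiableAt_borelSum (hR : 0 ≤ R) (hb : ∀ k, ‖b k‖ ≤ B * R ^ k) {w : ℂ}
    (hw : R < ‖w‖) : DifferentiableAt ℂ (borelSum b) w := by
  obtain ⟨ρ, hRρ, hρw⟩ := exists_between hw
  have hρ0 : 0 < ρ := hR.trans_lt hRρ
  have hU : IsOpen {z : ℂ | ρ < ‖z‖} := isOpen_lt continuous_const continuous_norm
  refine (differentiableOn_tsum_of_summable_norm
    (u := fun k => B * ρ⁻¹ * (R / ρ) ^ k)
    ((summable_geometric_of_lt_one (by positivity) ((div_lt_one hρ0).2 hRρ)).mul_left _)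
    (fun k => ?_) hU fun k z hz => ?_).differentiableAt (hU.mem_nhds hρw)
  · exact (differentiableOn_inv.mono fun z hz => by
      simpa using (norm_pos_iff.1 (hρ0.trans hz))).pow (k + 1) |>.const_mul (b k)
  · rw [norm_mul, norm_pow, norm_inv]
    refine (mul_le_mul (hb k) (pow_le_pow_left₀ (by positivity)
      (inv_anti₀ hρ0 (le_of_lt hz)) _) (by positivity)
      (mul_nonneg (nonneg_of_bound hb) (pow_nonneg hR k))).trans (le_of_eq ?_)
    rw [div_pow, pow_succ, inv_pow]
    ring

theorem laplace_eq_borelSum (hR : 0 ≤ R) (hb : ∀ k, ‖b k‖ ≤ B * R ^ k) {x₀ : ℝ} (hx₀ : R < x₀) :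
    laplaceInt b x₀ = borelSum b x₀ := by
  have hx0 : 0 < x₀ := hR.trans_lt hx₀
  obtain ⟨Φ, hΦ⟩ : ∃ Φ : ℕ → ℝ → ℂ, Φ = fun k x =>
      b k / k.factorial * ((x ^ k * Real.exp (-(x₀ * x)) : ℝ) : ℂ) := ⟨_, rfl⟩
  have hint : ∀ k : ℕ, IntegrableOn (fun x : ℝ => x ^ k * Real.exp (-(x₀ * x))) (Set.Ioi 0) ∧
      ∫ x in Set.Ioi (0 : ℝ), x ^ k * Real.exp (-(x₀ * x)) = k.factorial / x₀ ^ (k + 1) := by
    intro k
    have h := Real.integral_rpow_mul_exp_neg_mul_Ioi (a := (k : ℝ) + 1) (by positivity) hx0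
    simp only [add_sub_cancel_right, Real.rpow_natCast, Real.Gamma_nat_eq_factorial] at h
    rw [show ((k : ℝ) + 1) = ((k + 1 : ℕ) : ℝ) by push_cast; ring, Real.rpow_natCast,
      one_div_pow, one_div_mul_eq_div] at h
    refine ⟨?_, h⟩
    by_contra hni
    rw [integral_undef hni] at h
    exact (div_pos (Nat.cast_pos.2 k.factorial_pos) (pow_pos hx0 _)).ne h
  have hΦi : ∀ k, Integrable (Φ k) (volume.restrict (Set.Ioi 0)) := fun k => by
    rw [hΦ]
    exact ((hint k).1.integrable.ofReal).const_mul _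
  have hval : ∀ k, ∫ x in Set.Ioi (0 : ℝ), Φ k x = b k * ((x₀ : ℂ))⁻¹ ^ (k + 1) := fun k => by
    rw [hΦ]
    simp only
    rw [integral_const_mul, integral_complex_ofReal, (hint k).2]
    have : (k.factorial : ℂ) ≠ 0 := Nat.cast_ne_zero.2 k.factorial_ne_zero
    push_cast
    field_simp
    rw [one_div, inv_pow, div_eq_mul_inv]
  have hnorm : ∀ k, ∫ x in Set.Ioi (0 : ℝ), ‖Φ k x‖ = ‖b k * ((x₀ : ℂ))⁻¹ ^ (k + 1)‖ := fun k => by
    rw [setIntegral_congr_fun measurableSet_Ioi (g := fun x : ℝ =>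
      ‖b k‖ / k.factorial * (x ^ k * Real.exp (-(x₀ * x)))) fun x hx => by
        rw [hΦ]
        simp only
        rw [norm_mul, norm_div, Complex.norm_natCast, Complex.norm_real,
          Real.norm_of_nonneg (mul_nonneg (pow_nonneg (le_of_lt hx) k) (Real.exp_pos _).le)]]
    rw [integral_const_mul, (hint k).2, norm_mul, norm_pow, norm_inv, Complex.norm_real,
      Real.norm_of_nonneg hx0.le, inv_pow]
    have : (k.factorial : ℝ) ≠ 0 := Nat.cast_ne_zero.2 k.factorial_ne_zero
    field_simp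
  have hsum := hasSum_integral_of_summable_integral_norm hΦi (by
    simp only [hnorm]
    exact summable_borelTerm hR hb (by rwa [Complex.norm_real, Real.norm_of_nonneg hx0.le]))
  simp only [hval] at hsum
  rw [borelSum, hsum.tsum_eq, laplaceInt]
  refine integral_congr_ae (Eventually.of_forall fun x => ?_)
  simp only
  rw [expSeries, ← tsum_mul_right, hΦ]
  refine tsum_congr fun k => ?_
  push_cast
  ring_nf

theorem differentiableAt_laplaceInt (hR : 0 ≤ R) (hb : ∀ k, ‖b k‖ ≤ B * R ^ k) {β C : ℝ}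
    (hdec : ∀ x : ℝ, 0 ≤ x → ‖expSeries b x‖ ≤ C * Real.exp (-(β * x))) {w : ℂ}
    (hw : -β < w.re) : DifferentiableAt ℂ (laplaceInt b) w := by
  obtain ⟨δ, hδ⟩ : ∃ δ, δ = (β + w.re) / 4 := ⟨_, rfl⟩
  have hδ0 : 0 < δ := by rw [hδ]; linarith
  have hC : 0 ≤ C := nonneg_of_mul_nonneg_left
    ((norm_nonneg _).trans (hdec 0 le_rfl)) (Real.exp_pos _)
  have hc : Continuous fun x : ℝ => expSeries b x :=
    (differentiable_expSeries hR hb).continuous.comp Complex.continuous_ofReal
  have hbase : ∀ x : ℝ, 0 < x → ∀ z : ℂ, z ∈ Metric.ball w δ →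
      ‖expSeries b x * cexp (-(z * x))‖ ≤ C * Real.exp (-(3 * δ) * x) := by
    intro x hx z hz
    rw [Metric.mem_ball, dist_eq_norm] at hz
    have hre : w.re - δ ≤ z.re := by
      have := (Complex.abs_re_le_norm (z - w)).trans hz.le
      rw [Complex.sub_re, abs_le] at this
      linarith
    rw [norm_mul, Complex.norm_exp, show (-(z * (x : ℂ))).re = -(z.re * x) by simp]
    refine (mul_le_mul_of_nonneg_right (hdec x hx.le) (Real.exp_pos _).le).trans ?_
    rw [mul_assoc, ← Real.exp_add]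
    refine mul_le_mul_of_nonneg_left (Real.exp_le_exp.2 ?_) hC
    nlinarith [mul_le_mul_of_nonneg_right (show 3 * δ ≤ β + z.re by linarith) hx.le]
  have h := hasDerivAt_integral_of_dominated_loc_of_deriv_le
    (μ := volume.restrict (Set.Ioi (0 : ℝ))) (Metric.ball_mem_nhds w hδ0)
    (F := fun z (x : ℝ) => expSeries b x * cexp (-(z * x)))
    (F' := fun z (x : ℝ) => expSeries b x * (cexp (-(z * x)) * -(x : ℂ)))
    (bound := fun x => C / δ * Real.exp (-(2 * δ) * x))
    (Eventually.of_forall fun z => (hc.mul (by fun_prop)).aestronglyMeasurable) ?_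
    (hc.mul (by fun_prop)).aestronglyMeasurable ?_
    ((exp_neg_integrableOn_Ioi 0 (by linarith : 0 < 2 * δ)).const_mul _) ?_
  · exact h.2.differentiableAt
  · refine ((exp_neg_integrableOn_Ioi 0 (by linarith : 0 < 3 * δ)).const_mul C).mono'
      (hc.mul (by fun_prop)).aestronglyMeasurable ?_
    filter_upwards [ae_restrict_mem measurableSet_Ioi] with x hx
    exact hbase x hx w (Metric.mem_ball_self hδ0)
  · filter_upwards [ae_restrict_mem measurableSet_Ioi] with x hx z hz
    rw [← mul_assoc, norm_mul, norm_neg, Complex.norm_real, Real.norm_of_nonneg (le_of_lt hx)]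
    refine (mul_le_mul_of_nonneg_right (hbase x hx z hz) (le_of_lt hx)).trans ?_
    have h1 : x ≤ 1 / δ * Real.exp (δ * x) := by
      rw [one_div_mul_eq_div, le_div_iff₀ hδ0]
      linarith [Real.add_one_le_exp (δ * x)]
    calc C * Real.exp (-(3 * δ) * x) * x
        ≤ C * Real.exp (-(3 * δ) * x) * (1 / δ * Real.exp (δ * x)) := by gcongr
      _ = C / δ * (Real.exp (-(3 * δ) * x) * Real.exp (δ * x)) := by ring
      _ = _ := by rw [← Real.exp_add]; ring_nf
  · refine Eventually.of_forall fun x z _ => ?_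
    have := (((hasDerivAt_id' z).mul_const (x : ℂ)).fun_neg.cexp).const_mul (expSeries b x)
    simpa using this

/-- The open piece beyond the tangent line of direction `e^(iθ)`. -/
def tangentPiece (R β θ : ℝ) : Set ℂ :=
  {w : ℂ | -β < w.re ∧ R < (w * cexp (-(θ * I))).re}

theorem tangentPiece_props (R β θ : ℝ) :
    IsOpen (tangentPiece R β θ) ∧ IsPreconnected (tangentPiece R β θ) := by
  refine ⟨(isOpen_lt continuous_const Complex.continuous_re).inter
    (isOpen_lt continuous_const (Complex.continuous_re.comp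
      (f := fun w : ℂ => w * cexp (-(θ * I))) (by fun_prop))), Convex.isPreconnected ?_⟩
  intro u hu v hv s t hs ht hst
  have key : ∀ c : ℂ, ((s • u + t • v) * c).re = s * (u * c).re + t * (v * c).re := fun c => by
    simp [Complex.real_smul, Complex.mul_re]
    ring
  have h1 := key 1
  simp only [mul_one] at h1
  refine ⟨?_, ?_⟩
  · rw [h1]
    exact lt_of_lt_of_le (lt_min hu.1 hv.1) (Convex.min_le_combo _ _ hs ht hst)
  · show R < _
    rw [key]
    exact lt_of_lt_of_le (lt_min hu.2 hv.2) (Convex.min_le_combo _ _ hs ht hst)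

theorem norm_gt_of_mem_tangentPiece {β θ : ℝ} {w : ℂ} (hw : w ∈ tangentPiece R β θ) :
    R < ‖w‖ := by
  refine hw.2.trans_le ((Complex.re_le_norm _).trans (le_of_eq ?_))
  rw [norm_mul, ← neg_mul, ← Complex.ofReal_neg, Complex.norm_exp_ofReal_mul_I, mul_one]

/-- **The uniqueness theorem.** -/
theorem coeff_eq_zero_of_decay (hR : 0 ≤ R) (hb : ∀ k, ‖b k‖ ≤ B * R ^ k) {β C : ℝ}
    (hβ : R < β) (hdec : ∀ x : ℝ, 0 ≤ x → ‖expSeries b x‖ ≤ C * Real.exp (-(β * x))) :
    ∀ k, b k = 0 := by
  have hG : ∀ w : ℂ, -β < w.re → DifferentiableAt ℂ (laplaceInt b) w := fun w hw =>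
    differentiableAt_laplaceInt hR hb hdec hw
  have hspread : ∀ θ θ' : ℝ, Set.EqOn (laplaceInt b) (borelSum b) (tangentPiece R β θ) →
      (tangentPiece R β θ ∩ tangentPiece R β θ').Nonempty →
      Set.EqOn (laplaceInt b) (borelSum b) (tangentPiece R β θ') := by
    intro θ θ' heq ⟨z, hz, hz'⟩
    obtain ⟨ho, hc⟩ := tangentPiece_props R β θ'
    refine AnalyticOnNhd.eqOn_of_preconnected_of_frequently_eq
      (DifferentiableOn.analyticOnNhd (fun u hu => (hG u hu.1).differentiableWithinAt) ho)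
      (DifferentiableOn.analyticOnNhd (fun u hu => (differentiableAt_borelSum hR hb
        (norm_gt_of_mem_tangentPiece hu)).differentiableWithinAt) ho) hc hz' ?_
    have hev : ∀ᶠ u in 𝓝 z, u ∈ tangentPiece R β θ := (tangentPiece_props R β θ).1.mem_nhds hz
    exact (eventually_nhdsWithin_of_eventually_nhds hev).frequently.mono fun u hu => heq hu
  have h0 : Set.EqOn (laplaceInt b) (borelSum b) (tangentPiece R β 0) := by
    obtain ⟨ho, hc⟩ := tangentPiece_props R β 0
    have hz : ((R + 1 : ℝ) : ℂ) ∈ tangentPiece R β 0 := by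
      refine ⟨by simp; linarith, by simp⟩
    refine AnalyticOnNhd.eqOn_of_preconnected_of_frequently_eq
      (DifferentiableOn.analyticOnNhd (fun u hu => (hG u hu.1).differentiableWithinAt) ho)
      (DifferentiableOn.analyticOnNhd (fun u hu => (differentiableAt_borelSum hR hb
        (norm_gt_of_mem_tangentPiece hu)).differentiableWithinAt) ho) hc hz ?_
    have ht : Tendsto (fun n : ℕ => ((R + 1 + ((n : ℝ) + 1)⁻¹ : ℝ) : ℂ)) atTop
        (𝓝[≠] ((R + 1 : ℝ) : ℂ)) := by
      refine tendsto_nhdsWithin_iff.2 ⟨(Complex.continuous_ofReal.tendsto _).comp ?_,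
        Eventually.of_forall fun n => ?_⟩
      · simpa [one_div] using (tendsto_one_div_add_atTop_nhds_zero_nat (𝕜 := ℝ)).const_add (R + 1)
      · rw [Set.mem_compl_iff, Set.mem_singleton_iff, Complex.ofReal_inj]
        have : (0 : ℝ) < ((n : ℝ) + 1)⁻¹ := by positivity
        linarith
    exact ht.frequently (Eventually.of_forall fun n : ℕ => laplace_eq_borelSum hR hb
      (show R < R + 1 + ((n : ℝ) + 1)⁻¹ by
        have : (0 : ℝ) < ((n : ℝ) + 1)⁻¹ := by positivity
        linarith)).frequently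
  -- every piece meets the piece of the direction `0` or `π / 2`
  have hhalf : Set.EqOn (laplaceInt b) (borelSum b) (tangentPiece R β (π / 2)) := by
    refine hspread 0 _ h0 ⟨((R + 1 : ℝ) : ℂ) * (1 + I), ⟨?_, ?_⟩, ⟨?_, ?_⟩⟩
    · simp; linarith
    · simp
    · simp; linarith
    · rw [show cexp (-(((π / 2 : ℝ) : ℂ) * I)) = -I by
        rw [Complex.exp_neg]; push_cast; rw [Complex.exp_pi_div_two_mul_I, Complex.inv_I]]
      simp
  have hall : ∀ w : ℂ, -β < w.re → R < ‖w‖ → laplaceInt b w = borelSum b w := by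
    intro w hw1 hw2
    have hmem : w ∈ tangentPiece R β w.arg := by
      refine ⟨hw1, lt_of_lt_of_eq hw2 ?_⟩
      have e : w * cexp (-(w.arg * I)) = (‖w‖ : ℂ) := by
        nth_rw 1 [← Complex.norm_mul_exp_arg_mul_I w]
        rw [mul_assoc, ← Complex.exp_add, add_neg_cancel, Complex.exp_zero, mul_one]
      rw [e, Complex.ofReal_re]
    rcases eq_or_ne w.arg π with hπ | hπ
    · rw [hπ] at hmem
      have hm : ((-(R + β) / 2 : ℝ) : ℂ) + ((R + 1 : ℝ) : ℂ) * I ∈ tangentPiece R β π ∧
          ((-(R + β) / 2 : ℝ) : ℂ) + ((R + 1 : ℝ) : ℂ) * I ∈ tangentPiece R β (π / 2) := by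
        refine ⟨⟨by simp; linarith, ?_⟩, ⟨by simp; linarith, ?_⟩⟩
        · rw [Complex.exp_neg, Complex.exp_pi_mul_I]
          simp
          linarith
        · rw [show cexp (-(((π / 2 : ℝ) : ℂ) * I)) = -I by
            rw [Complex.exp_neg]; push_cast; rw [Complex.exp_pi_div_two_mul_I, Complex.inv_I]]
          simp
      exact hspread _ _ hhalf ⟨_, hm.2, hm.1⟩ hmem
    · obtain ⟨ψ, hψ⟩ : ∃ ψ, ψ = w.arg / 2 := ⟨_, rfl⟩
      have hψ1 : 0 < Real.cos ψ := Real.cos_pos_of_mem_Ioo
        ⟨by linarith [Complex.neg_pi_lt_arg w], by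
          linarith [lt_of_le_of_ne (Complex.arg_le_pi w) hπ]⟩
      obtain ⟨T, hT⟩ : ∃ T, T = (R + 1) / Real.cos ψ := ⟨_, rfl⟩
      have hT0 : 0 < T := hT ▸ div_pos (by linarith) hψ1
      have hTc : T * Real.cos ψ = R + 1 := by rw [hT, div_mul_cancel₀ _ hψ1.ne']
      refine hspread _ _ h0 ⟨(T : ℂ) * cexp (ψ * I), ⟨?_, ?_⟩, ⟨?_, ?_⟩⟩ hmem
      · simp [Complex.exp_re]; linarith
      · simp [Complex.exp_re]; linarith
      · simp [Complex.exp_re]; linarith
      · rw [mul_assoc, ← Complex.exp_add,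
          show (ψ : ℂ) * I + -((w.arg : ℂ) * I) = ((-ψ : ℝ) : ℂ) * I by
            rw [show w.arg = ψ + ψ by rw [hψ]; ring]; push_cast; ring]
        simp [Complex.exp_re]
        linarith
  obtain ⟨H, hH⟩ : ∃ H : ℂ → ℂ, H = fun w => if -β < w.re then laplaceInt b w else borelSum b w :=
    ⟨_, rfl⟩
  have houter : ∀ w : ℂ, R < ‖w‖ → H w = borelSum b w := fun w hw => by
    rw [hH]
    simp only
    split_ifs with h
    · exact hall w h hw
    · rfl
  have hHd : Differentiable ℂ H := fun w => by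
    by_cases h : -β < w.re
    · refine (hG w h).congr_of_eventuallyEq ?_
      filter_upwards [(isOpen_lt continuous_const Complex.continuous_re).mem_nhds h] with u hu
      rw [hH]
      exact if_pos hu
    · have hw : R < ‖w‖ :=
        hβ.trans_le (le_trans (by linarith [not_lt.1 h])
          ((neg_le_abs _).trans (Complex.abs_re_le_norm w)))
      refine (differentiableAt_borelSum hR hb hw).congr_of_eventuallyEq ?_
      filter_upwards [(isOpen_lt continuous_const continuous_norm).mem_nhds hw] with u hu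
      exact houter u hu
  have hlim : Tendsto H (cocompact ℂ) (𝓝 0) := by
    refine squeeze_zero_norm' (a := fun w => B / (‖w‖ - R)) ?_ ?_
    · filter_upwards [tendsto_norm_cocompact_atTop.eventually_gt_atTop R] with w hw
      rw [houter w hw]
      exact norm_borelSum_le hR hb hw
    · exact tendsto_const_nhds.div_atTop
        ((tendsto_atTop_add_const_right _ (-R) tendsto_norm_cocompact_atTop).congr fun w => by ring)
  have hzero : ∀ w : ℂ, R < ‖w‖ → borelSum b w = 0 := fun w hw => by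
    rw [← houter w hw, hHd.apply_eq_of_tendsto_cocompact w hlim]
  intro k
  induction k using Nat.strong_induction_on with
  | _ k ih =>
    have hz : ∀ᶠ x : ℝ in atTop, ∑' j, b (j + k) * ((x : ℂ))⁻¹ ^ j = 0 := by
      filter_upwards [eventually_gt_atTop R] with x hx
      have hx0 : 0 < x := hR.trans_lt hx
      have hxn : R < ‖(x : ℂ)‖ := by rwa [Complex.norm_real, Real.norm_of_nonneg hx0.le]
      have h := hzero x hxn
      rw [borelSum, ← (summable_borelTerm hR hb hxn).of_norm.sum_add_tsum_nat_add k,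
        Finset.sum_eq_zero fun j hj => by rw [ih j (Finset.mem_range.1 hj), zero_mul],
        zero_add] at h
      rw [tsum_congr (g := fun j => (x : ℂ)⁻¹ ^ (k + 1) * (b (j + k) * (x : ℂ)⁻¹ ^ j))
        fun j => by ring, tsum_mul_left] at h
      exact (mul_eq_zero.1 h).resolve_left
        (pow_ne_zero _ (inv_ne_zero (ofReal_ne_zero.2 hx0.ne')))
    have ht : Tendsto (fun x : ℝ => ∑' j, b (j + k) * ((x : ℂ))⁻¹ ^ j) atTop
        (𝓝 (∑' j : ℕ, if j = 0 then b k else 0)) := by
      refine tendsto_tsum_of_dominated_convergence (bound := fun j => B * R ^ k * (1 / 2) ^ j)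
        ((summable_geometric_of_lt_one (by norm_num) (by norm_num)).mul_left _) (fun j => ?_) ?_
      · rcases Nat.eq_zero_or_pos j with rfl | hj
        · simp
        · rw [if_neg hj.ne']
          have := (((Complex.continuous_ofReal.tendsto _).comp
            (tendsto_inv_atTop_zero (𝕜 := ℝ))).pow j).const_mul (b (j + k))
          simpa [zero_pow hj.ne'] using this
      · filter_upwards [eventually_ge_atTop (2 * R + 1)] with x hx j
        have hx0 : 0 < x := by linarith
        rw [norm_mul, norm_pow, norm_inv, Complex.norm_real, Real.norm_of_nonneg hx0.le]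
        refine (mul_le_mul_of_nonneg_right (hb (j + k)) (by positivity)).trans ?_
        rw [pow_add, show B * (R ^ j * R ^ k) * x⁻¹ ^ j = B * R ^ k * (R * x⁻¹) ^ j by ring]
        refine mul_le_mul_of_nonneg_left (pow_le_pow_left₀ (by positivity) ?_ j)
          (mul_nonneg (nonneg_of_bound hb) (pow_nonneg hR k))
        rw [mul_inv_le_iff₀ hx0]
        linarith
    have := tendsto_nhds_unique ht ((tendsto_const_nhds (x := (0 : ℂ))).congr'
      (hz.mono fun x h => h.symm))
    rwa [tsum_ite_eq] at this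

end FA.Voronin
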