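import Fermat.Agent.Voronin.Borel
import Fermat.Agent.Root.SummaryDelaValleePoussin
import Mathlib.LinearAlgebra.Lagrange
import Mathlib.Analysis.SpecialFunctions.Pow.Asymptotics

/-!
# An entire function of small type that is small at the logarithms of the primes vanishes

If `‖b k‖ ≤ B R ^ k` with `R < 1/4` and `∑ p^(-3/4) |F (log p)|` converges over a set `S` of primes
rich in short intervals (all primes, or a class), `F = expSeries b`, then `F` is small at a prime in
each of `⌈εx⌉` short intervals beyond `x`, so by interpolation `|F x| = O (e^(-βx))` for a `β > R`,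
and `F = 0` by the uniqueness theorem.
-/

set_option autoImplicit false

noncomputable section

namespace FA.Voronin

open Filter Finset Complex
open scoped Topology Real

variable {b : ℕ → ℂ} {B R : ℝ}

theorem hasDerivAt_expSeries (hR : 0 ≤ R) (hb : ∀ k, ‖b k‖ ≤ B * R ^ k) (z : ℂ) :
    HasDerivAt (expSeries b) (expSeries (fun k => b (k + 1)) z) z := by
  have hU : IsOpen (Metric.ball (0 : ℂ) (‖z‖ + 1)) := Metric.isOpen_ball
  have h := hasSum_deriv_of_summable_norm (F := fun k w => b k * w ^ k / (k.factorial : ℂ))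
    ((Real.summable_pow_div_factorial (R * (‖z‖ + 1))).mul_left B) (fun k => by fun_prop) hU
    (fun k w hw => by
      rw [Metric.mem_ball, dist_zero_right] at hw
      refine (norm_expTerm_le hb w k).trans (mul_le_mul_of_nonneg_left ?_ (nonneg_of_bound hb))
      gcongr) (show z ∈ Metric.ball (0 : ℂ) (‖z‖ + 1) by simp)
  have e : expSeries (fun k => b (k + 1)) z = deriv (expSeries b) z := by
    change _ = deriv (fun w => ∑' k, b k * w ^ k / (k.factorial : ℂ)) z
    rw [← h.tsum_eq, h.summable.tsum_eq_zero_add, expSeries]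
    simp only [pow_zero, mul_one, Nat.factorial_zero, Nat.cast_one, div_one, deriv_const', zero_add]
    refine tsum_congr fun k => ?_
    have h1 := (((hasDerivAt_pow (k + 1) z).const_mul (b (k + 1))).div_const
      ((k + 1).factorial : ℂ)).deriv
    rw [h1, Nat.factorial_succ]
    have h2 : (k.factorial : ℂ) ≠ 0 := Nat.cast_ne_zero.2 k.factorial_ne_zero
    have h3 : (k : ℂ) + 1 ≠ 0 := Nat.cast_add_one_ne_zero k
    push_cast
    field_simp
  rw [e]
  exact ((differentiable_expSeries hR hb).differentiableAt).hasDerivAt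

/-- Taylor's formula at `x` with the remainder of the exponential type. -/
theorem norm_expSeries_taylor_le (hR : 0 ≤ R) (n : ℕ) :
    ∀ (b : ℕ → ℂ) (B : ℝ), (∀ k, ‖b k‖ ≤ B * R ^ k) → ∀ x t : ℝ, 0 ≤ x → t ∈ Set.Icc (0 : ℝ) 1 →
      ‖expSeries b ((x + t : ℝ) : ℂ) -
        ∑ k ∈ range n, expSeries (fun i => b (i + k)) x * (t : ℂ) ^ k / (k.factorial : ℂ)‖ ≤
        B * Real.exp (R * (x + 1)) * R ^ n * t ^ n / n.factorial := by
  induction n with
  | zero =>
    intro b B hb x t hx ht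
    simp only [range_zero, sum_empty, sub_zero, pow_zero, mul_one, Nat.factorial_zero,
      Nat.cast_one, div_one]
    refine (norm_expSeries_le hR hb _).trans (mul_le_mul_of_nonneg_left ?_ (nonneg_of_bound hb))
    rw [Complex.norm_real, Real.norm_of_nonneg (add_nonneg hx ht.1)]
    gcongr
    exact ht.2
  | succ n ih =>
    intro b B hb x t hx ht
    have hb' : ∀ k, ‖b (k + 1)‖ ≤ B * R * R ^ k := fun k =>
      (hb (k + 1)).trans (le_of_eq (by ring))
    obtain ⟨g, hg⟩ : ∃ g : ℝ → ℂ, g = fun s : ℝ => expSeries b ((x + s : ℝ) : ℂ) -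
        ∑ k ∈ range (n + 1), expSeries (fun i => b (i + k)) x * (s : ℂ) ^ k / (k.factorial : ℂ) :=
      ⟨_, rfl⟩
    obtain ⟨g', hg'⟩ : ∃ g' : ℝ → ℂ, g' = fun s : ℝ => expSeries (fun k => b (k + 1))
        ((x + s : ℝ) : ℂ) - ∑ k ∈ range n, expSeries (fun i => b (i + k + 1)) x * (s : ℂ) ^ k /
          (k.factorial : ℂ) := ⟨_, rfl⟩
    have hd : ∀ s : ℝ, HasDerivAt g (g' s) s := by
      intro s
      have h1 : HasDerivAt (fun s : ℝ => expSeries b ((x + s : ℝ) : ℂ))
          (expSeries (fun k => b (k + 1)) ((x + s : ℝ) : ℂ)) s := by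
        have := ((hasDerivAt_expSeries hR hb _).comp_ofReal (z := x + s)).comp_const_add x s
        simpa using this
      have h2 : HasDerivAt (fun s : ℝ => ∑ k ∈ range (n + 1),
          expSeries (fun i => b (i + k)) x * (s : ℂ) ^ k / (k.factorial : ℂ))
          (∑ k ∈ range n, expSeries (fun i => b (i + k + 1)) x * (s : ℂ) ^ k /
            (k.factorial : ℂ)) s := by
        have h3 := HasDerivAt.fun_sum (u := range (n + 1)) fun k _ =>
          ((((hasDerivAt_pow k (s : ℂ)).comp_ofReal).const_mul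
            (expSeries (fun i => b (i + k)) x)).div_const (k.factorial : ℂ))
        refine h3.congr_deriv ?_
        rw [sum_range_succ']
        simp only [CharP.cast_eq_zero, zero_mul, mul_zero, zero_div, add_zero]
        refine sum_congr rfl fun k _ => ?_
        have h4 : (k.factorial : ℂ) ≠ 0 := Nat.cast_ne_zero.2 k.factorial_ne_zero
        have h5 : (k : ℂ) + 1 ≠ 0 := Nat.cast_add_one_ne_zero k
        rw [Nat.factorial_succ]
        push_cast
        field_simp
        simp [← add_assoc, mul_comm]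
      rw [hg, hg']
      exact h1.sub h2
    have hbound : ∀ s ∈ Set.Ico (0 : ℝ) 1, ‖g' s‖ ≤
        B * Real.exp (R * (x + 1)) * R ^ (n + 1) * s ^ n / n.factorial := fun s hs => by
      rw [hg']
      refine ((le_of_eq ?_).trans (ih _ _ hb' x s hx ⟨hs.1, hs.2.le⟩)).trans (le_of_eq (by ring))
      rfl
    have hF : ∀ s : ℝ, HasDerivAt
        (fun u : ℝ => B * Real.exp (R * (x + 1)) * R ^ (n + 1) * u ^ (n + 1) / (n + 1).factorial)
        (B * Real.exp (R * (x + 1)) * R ^ (n + 1) * s ^ n / n.factorial) s := fun s => by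
      refine (((hasDerivAt_pow (n + 1) s).const_mul _).div_const _).congr_deriv ?_
      have h4 : (n.factorial : ℝ) ≠ 0 := Nat.cast_ne_zero.2 n.factorial_ne_zero
      rw [Nat.factorial_succ]
      push_cast
      field_simp
    have h0 : ‖g 0‖ ≤
        B * Real.exp (R * (x + 1)) * R ^ (n + 1) * (0 : ℝ) ^ (n + 1) / (n + 1).factorial := by
      rw [hg]
      simp [sum_range_succ']
    have hmain := image_norm_le_of_norm_deriv_right_le_deriv_boundary (a := 0) (b := 1)
      (fun s _ => (hd s).continuousAt.continuousWithinAt) (fun s _ => (hd s).hasDerivWithinAt)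
      h0 hF hbound ht
    rw [hg] at hmain
    exact hmain

theorem prod_erase_natDist (m i : ℕ) (hi : i ≤ m) :
    ∏ j ∈ (range (m + 1)).erase i, |(i : ℝ) - j| = (i.factorial : ℝ) * (m - i).factorial := by
  have e : (range (m + 1)).erase i = range i ∪ Ico (i + 1) (m + 1) := by
    ext j
    simp only [mem_erase, Finset.mem_range, mem_union, Finset.mem_Ico]
    omega
  rw [e, prod_union (by
    rw [Finset.disjoint_left]
    intro j h1 h2
    rw [Finset.mem_range] at h1
    rw [Finset.mem_Ico] at h2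
    omega)]
  congr 1
  · rw [← prod_range_add_one_eq_factorial i, Nat.cast_prod,
      ← prod_range_reflect (fun j => ((j + 1 : ℕ) : ℝ)) i]
    refine prod_congr rfl fun j hj => ?_
    rw [Finset.mem_range] at hj
    rw [abs_of_nonneg (sub_nonneg.2 (Nat.cast_le.2 hj.le)), show i - 1 - j + 1 = i - j by omega,
      Nat.cast_sub hj.le]
  · rw [← prod_range_add_one_eq_factorial (m - i), Nat.cast_prod, prod_Ico_eq_prod_range,
      show m + 1 - (i + 1) = m - i by omega]
    refine prod_congr rfl fun k _ => ?_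
    push_cast
    rw [abs_of_nonpos (by linarith [(Nat.cast_nonneg k : (0 : ℝ) ≤ k)])]
    ring

/-- The value at `0` of a polynomial of degree `< n` from its values at spread nodes. -/
theorem norm_const_le_of_nodes {n : ℕ} (hn : 0 < n) (c : ℕ → ℂ) (t : ℕ → ℝ)
    (ht : ∀ i < n, t i ∈ Set.Icc ((i : ℝ) / n) (((i : ℝ) + 1 / 2) / n)) {δ : ℝ}
    (hδ : ∀ i < n, ‖∑ k ∈ range n, c k * (t i : ℂ) ^ k‖ ≤ δ) :
    ‖c 0‖ ≤ Real.exp (4 * n) * δ := by
  classical
  have hnR : (0 : ℝ) < n := Nat.cast_pos.2 hn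
  have hgap : ∀ i < n, ∀ j < n, i ≠ j → |(i : ℝ) - j| / (2 * n) ≤ |t i - t j| := by
    intro i hi j hj hij
    have hi1 := (div_le_iff₀ hnR).1 (ht i hi).1
    have hi2 := (le_div_iff₀ hnR).1 (ht i hi).2
    have hj1 := (div_le_iff₀ hnR).1 (ht j hj).1
    have hj2 := (le_div_iff₀ hnR).1 (ht j hj).2
    rw [div_le_iff₀ (by positivity)]
    rcases lt_or_gt_of_ne hij with h | h
    · have h1 : (i : ℝ) + 1 ≤ j := by exact_mod_cast h
      rw [abs_of_nonpos (by linarith)]
      nlinarith [neg_le_abs (t i - t j)]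
    · have h1 : (j : ℝ) + 1 ≤ i := by exact_mod_cast h
      rw [abs_of_nonneg (by linarith)]
      nlinarith [le_abs_self (t i - t j)]
  have hinj : Set.InjOn (fun i => (t i : ℂ)) (range n) := by
    intro i hi j hj hij
    by_contra hne
    simp only [Finset.coe_range, Set.mem_Iio] at hi hj
    have h := hgap i hi j hj hne
    rw [Complex.ofReal_inj.1 hij, sub_self, abs_zero] at h
    have : 0 < |(i : ℝ) - j| / (2 * n) :=
      div_pos (abs_pos.2 (sub_ne_zero.2 (Nat.cast_injective.ne hne))) (by positivity)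
    linarith
  obtain ⟨P, hP⟩ : ∃ P : Polynomial ℂ,
      P = ∑ k : Fin n, Polynomial.C (c k) * Polynomial.X ^ (k : ℕ) :=
    ⟨_, rfl⟩
  have hdeg : P.degree < (range n).card := by
    rw [hP, card_range]
    exact Polynomial.degree_sum_fin_lt _
  have hev : ∀ w : ℂ, P.eval w = ∑ k ∈ range n, c k * w ^ k := fun w => by
    rw [hP, Polynomial.eval_finsetSum]
    simp only [Polynomial.eval_mul, Polynomial.eval_C, Polynomial.eval_pow, Polynomial.eval_X]
    exact Fin.sum_univ_eq_sum_range (fun k => c k * w ^ k) n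
  have hc0 : c 0 = P.eval 0 := by
    rw [hev, sum_eq_single_of_mem 0 (Finset.mem_range.2 hn) fun k _ hk => by simp [zero_pow hk],
      pow_zero, mul_one]
  rw [hc0, Lagrange.eq_interpolate hinj hdeg, Lagrange.interpolate_apply,
    Polynomial.eval_finsetSum]
  have hδ0 : 0 ≤ δ := (norm_nonneg _).trans (hδ 0 hn)
  obtain ⟨m, rfl⟩ : ∃ m, n = m + 1 := ⟨n - 1, by omega⟩
  have hterm : ∀ i ∈ range (m + 1),
      ‖(Polynomial.C (P.eval (t i : ℂ)) *
        Lagrange.basis (range (m + 1)) (fun i => (t i : ℂ)) i).eval 0‖ ≤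
      δ * ((2 * ((m : ℝ) + 1)) ^ m / m.factorial * (m.choose i)) := by
    intro i hi
    rw [Finset.mem_range] at hi
    rw [Polynomial.eval_mul, Polynomial.eval_C, norm_mul]
    refine mul_le_mul (hev _ ▸ hδ i hi) ?_ (norm_nonneg _) hδ0
    rw [Lagrange.basis, Polynomial.eval_prod, norm_prod]
    refine le_trans (b := ∏ j ∈ (range (m + 1)).erase i, 2 * ((m : ℝ) + 1) / |(i : ℝ) - j|)
      (prod_le_prod ?_ fun j hj => ?_) (le_of_eq ?_)
    · exact fun _ _ => norm_nonneg _
    · obtain ⟨hji, hjn⟩ := mem_erase.1 hj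
      rw [Finset.mem_range] at hjn
      rw [Lagrange.basisDivisor, Polynomial.eval_mul, Polynomial.eval_C, Polynomial.eval_sub,
        Polynomial.eval_X, Polynomial.eval_C, norm_mul, norm_inv, zero_sub, norm_neg,
        ← Complex.ofReal_sub, Complex.norm_real, Complex.norm_real, Real.norm_eq_abs,
        Real.norm_eq_abs]
      have h := hgap i hi j hjn hji.symm
      have hd : 0 < |(i : ℝ) - j| := abs_pos.2 (sub_ne_zero.2 (Nat.cast_injective.ne hji.symm))
      have hj1 : |t j| ≤ 1 := by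
        have h1 := ht j hjn
        rw [abs_of_nonneg (le_trans (by positivity) h1.1)]
        refine h1.2.trans ((div_le_one hnR).2 ?_)
        have : (j : ℝ) + 1 ≤ ((m + 1 : ℕ) : ℝ) := by exact_mod_cast hjn
        linarith
      push_cast at h
      refine (mul_le_of_le_one_right (by positivity) hj1).trans ?_
      rw [div_le_iff₀ (by positivity)] at h
      rw [inv_le_iff_one_le_mul₀ (lt_of_lt_of_le (by positivity) (le_of_mul_le_mul_right
        (show |(i : ℝ) - j| / (2 * ((m : ℝ) + 1)) * (2 * ((m : ℝ) + 1)) ≤ _ by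
          rw [div_mul_cancel₀ _ (by positivity)]; exact h) (by positivity))),
        div_mul_eq_mul_div, le_div_iff₀ hd, one_mul]
      linarith
    · rw [prod_div_distrib, prod_const, card_erase_of_mem (Finset.mem_range.2 hi), card_range,
        Nat.add_sub_cancel, prod_erase_natDist m i (by omega),
        Nat.cast_choose ℝ (by omega : i ≤ m)]
      field_simp
  refine (norm_sum_le _ _).trans ((sum_le_sum hterm).trans ?_)
  rw [← mul_sum, ← mul_sum, ← Nat.cast_sum, Nat.sum_range_choose, mul_comm (Real.exp _)]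
  refine mul_le_mul_of_nonneg_left ?_ hδ0
  push_cast
  have h2 : (1 : ℝ) ≤ 2 := one_le_two
  calc (2 * ((m : ℝ) + 1)) ^ m / m.factorial * 2 ^ m = (4 * ((m : ℝ) + 1)) ^ m / m.factorial := by
        rw [div_mul_eq_mul_div, ← mul_pow]; ring_nf
    _ ≤ _ := Real.pow_div_factorial_le_exp _ (by positivity) _

/-- `∑ p^(-3/4) |F (log p)|` over `S`, the summand. -/
def primeTerm (S : Set ℕ) (b : ℕ → ℂ) (p : ℕ) : ℝ :=
  S.indicator (fun p : ℕ =>
    if p.Prime then (p : ℝ) ^ (-(3 / 4) : ℝ) * ‖expSeries b (Real.log p)‖ else 0) p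

theorem primeTerm_nonneg (S : Set ℕ) (b : ℕ → ℂ) (p : ℕ) : 0 ≤ primeTerm S b p :=
  Set.indicator_nonneg (fun q _ => by split_ifs <;> positivity) p

open Classical in
/-- `∑ log p` over the primes `p` of `S` with `x < p ≤ y`. -/
def thetaGap (S : Set ℕ) (x y : ℝ) : ℝ :=
  ∑ p ∈ (Finset.Ioc ⌊x⌋₊ ⌊y⌋₊).filter (fun p => p.Prime ∧ p ∈ S), Real.log p

/-- `S` has its share of the primes in the intervals `(e^a, e^(a+h)]` with `h ≫ 1/a`. -/
def PrimeRich (S : Set ℕ) : Prop :=
  ∃ κ : ℝ, 0 < κ ∧ ∀ ε : ℝ, 0 ≤ ε → ∀ᶠ x : ℝ in atTop, ∀ a h : ℝ, x ≤ a → h ≤ 1 →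
    1 / (2 * (ε * x + 1)) ≤ h → κ * (Real.exp a * h) ≤ thetaGap S (Real.exp a) (Real.exp (a + h))

/-- Some prime with logarithm in `(a, a + h]` has `F` small. -/
theorem exists_prime_small {S : Set ℕ} (hs : Summable (primeTerm S b)) {x a h : ℝ}
    (hax : a + h ≤ x + 1) {D : ℝ} (hD : 0 < D)
    (hθ : D ≤ thetaGap S (Real.exp a) (Real.exp (a + h))) :
    ∃ p : ℕ, Real.log p ∈ Set.Icc a (a + h) ∧ ‖expSeries b (Real.log p)‖ ≤
      ((∑' q, primeTerm S b q) + 1) * (x + 1) * Real.exp (3 / 4 * (x + 1)) / D := by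
  classical
  obtain ⟨W, hW⟩ : ∃ W, W = (Finset.Ioc ⌊Real.exp a⌋₊ ⌊Real.exp (a + h)⌋₊).filter
      (fun p => p.Prime ∧ p ∈ S) := ⟨_, rfl⟩
  have hmem : ∀ p ∈ W, p.Prime ∧ Real.log p ∈ Set.Icc a (a + h) ∧ (0 : ℝ) < p ∧ p ∈ S := by
    intro p hp
    rw [hW, mem_filter, Finset.mem_Ioc] at hp
    have h0 : (0 : ℝ) < p := Nat.cast_pos.2 hp.2.1.pos
    refine ⟨hp.2.1, ⟨?_, ?_⟩, h0, hp.2.2⟩
    · exact ((Real.lt_log_iff_exp_lt h0).2 (Nat.lt_of_floor_lt hp.1.1)).le
    · exact (Real.log_le_iff_le_exp h0).2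
        ((Nat.cast_le.2 hp.1.2).trans (Nat.floor_le (Real.exp_pos _).le))
  have hsum : D ≤ ∑ p ∈ W, Real.log p := hθ.trans (le_of_eq (by rw [hW, thetaGap]))
  by_contra hcon
  push Not at hcon
  obtain ⟨δ, hδ⟩ : ∃ δ, δ =
      ((∑' q, primeTerm S b q) + 1) * (x + 1) * Real.exp (3 / 4 * (x + 1)) / D := ⟨_, rfl⟩
  have h0 := primeTerm_nonneg S b
  have hle : ∀ p ∈ W, δ * Real.exp (-(3 / 4 * (x + 1))) * Real.log p ≤
      (x + 1) * primeTerm S b p := by
    intro p hp
    obtain ⟨hpr, hl, hp0, hpS⟩ := hmem p hp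
    have hlog : 0 ≤ Real.log p := Real.log_nonneg (by exact_mod_cast hpr.one_le)
    have h1 : Real.exp (-(3 / 4 * (x + 1))) ≤ (p : ℝ) ^ (-(3 / 4) : ℝ) := by
      rw [Real.rpow_def_of_pos hp0]
      exact Real.exp_le_exp.2 (by linarith [hl.2])
    have h2 := (hcon p hl).le
    rw [← hδ] at h2
    have h3 : δ * Real.exp (-(3 / 4 * (x + 1))) ≤ primeTerm S b p := by
      rw [primeTerm, Set.indicator_of_mem hpS, if_pos hpr, mul_comm δ]
      exact (mul_le_mul_of_nonneg_left h2 (Real.exp_pos _).le).trans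
        (mul_le_mul_of_nonneg_right h1 (norm_nonneg _))
    refine (mul_le_mul_of_nonneg_right h3 hlog).trans ?_
    rw [mul_comm]
    exact mul_le_mul_of_nonneg_right (hl.2.trans hax) (h0 p)
  have hWne : W.Nonempty := by
    rw [Finset.nonempty_iff_ne_empty]
    rintro rfl
    simp only [sum_empty] at hsum
    linarith
  obtain ⟨p₁, hp₁⟩ := hWne
  have hx1 : 0 < x + 1 := lt_of_lt_of_le (lt_of_lt_of_le
    (Real.log_pos (by exact_mod_cast (hmem p₁ hp₁).1.one_lt)) (hmem p₁ hp₁).2.1.2) hax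
  have hT : 0 ≤ ∑' q, primeTerm S b q := tsum_nonneg h0
  have hδ0 : 0 ≤ δ := hδ ▸ div_nonneg (mul_nonneg (mul_nonneg (by linarith) hx1.le)
    (Real.exp_pos _).le) hD.le
  have hall := (sum_le_sum hle).trans (le_of_eq (mul_sum _ _ _).symm)
  rw [← mul_sum] at hall
  have hall' := (mul_le_mul_of_nonneg_left hsum
    (mul_nonneg hδ0 (Real.exp_pos (-(3 / 4 * (x + 1)))).le)).trans
    (hall.trans (mul_le_mul_of_nonneg_left (hs.sum_le_tsum W fun q _ => h0 q) hx1.le))
  rw [hδ, Real.exp_neg] at hall'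
  field_simp at hall'
  linarith

open Classical in
/-- A prime number theorem with error `exp (-c (log y) ^ e)` for `S` makes it rich. -/
theorem primeRich_of_error (S : Set ℕ) {κ c C e : ℝ} (hκ : 0 < κ) (hc : 0 < c) (hC : 0 < C)
    (he : 0 < e) (hth : ∀ᶠ y : ℝ in atTop,
      |(∑ p ∈ (Finset.Ioc 0 ⌊y⌋₊).filter (fun p => p.Prime ∧ p ∈ S), Real.log p) - κ * y| ≤
        C * y * Real.exp (-(c * Real.log y ^ e))) : PrimeRich S := by
  refine ⟨κ / 2, half_pos hκ, fun ε hε => ?_⟩
  obtain ⟨Y, hY⟩ := eventually_atTop.1 hth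
  have h1 : Tendsto (fun x : ℝ => (C * Real.exp 1 * 2) *
      ((4 * ε) * ((x ^ e) ^ (1 / e) * Real.exp (-c * x ^ e)) +
        4 * ((x ^ e) ^ (0 : ℝ) * Real.exp (-c * x ^ e)))) atTop (𝓝 0) := by
    have ha := (tendsto_rpow_mul_exp_neg_mul_atTop_nhds_zero (1 / e) c hc).comp
      (tendsto_rpow_atTop he)
    have hb := (tendsto_rpow_mul_exp_neg_mul_atTop_nhds_zero 0 c hc).comp (tendsto_rpow_atTop he)
    simpa using ((ha.const_mul (4 * ε)).add (hb.const_mul 4)).const_mul (C * Real.exp 1 * 2)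
  filter_upwards [h1.eventually (eventually_le_nhds hκ), eventually_ge_atTop 1,
    eventually_ge_atTop Y] with x hx hx1 hxY a h hax hh1 hh
  have hden : 0 < 2 * (ε * x + 1) := by positivity
  have hh0 : 0 < h := lt_of_lt_of_le (one_div_pos.2 hden) hh
  have key : ∀ y : ℝ, a ≤ y → y ≤ a + 1 →
      |(∑ p ∈ (Finset.Ioc 0 ⌊Real.exp y⌋₊).filter (fun p => p.Prime ∧ p ∈ S), Real.log p) -
          κ * Real.exp y| ≤ C * Real.exp 1 * Real.exp a * Real.exp (-(c * x ^ e)) := by
    intro y hy1 hy2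
    refine (hY _ (by linarith [Real.add_one_le_exp y])).trans ?_
    rw [Real.log_exp, mul_assoc C, ← Real.exp_add, mul_assoc C (Real.exp 1), ← Real.exp_add,
      mul_assoc C, ← Real.exp_add]
    refine mul_le_mul_of_nonneg_left (Real.exp_le_exp.2 ?_) hC.le
    have := mul_le_mul_of_nonneg_left (Real.rpow_le_rpow (by linarith) (hax.trans hy1) he.le) hc.le
    linarith
  have e1 := (abs_le.1 (key (a + h) (by linarith) (by linarith))).1
  have e2 := (abs_le.1 (key a le_rfl (by linarith))).2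
  have e3 : Real.exp a * (1 + h) ≤ Real.exp (a + h) := by
    rw [Real.exp_add]
    exact mul_le_mul_of_nonneg_left (by linarith [Real.add_one_le_exp h]) (Real.exp_pos a).le
  have hsq : (x ^ e) ^ (1 / e) = x := by
    rw [← Real.rpow_mul (by linarith), mul_one_div, div_self he.ne', Real.rpow_one]
  rw [hsq, Real.rpow_zero, neg_mul] at hx
  rw [div_le_iff₀ hden] at hh
  have hkey : 2 * (C * Real.exp 1 * Real.exp (-(c * x ^ e))) ≤ κ * h / 2 := by
    refine le_of_mul_le_mul_left ?_ hden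
    nlinarith
  have hsplit : thetaGap S (Real.exp a) (Real.exp (a + h)) =
      (∑ p ∈ (Finset.Ioc 0 ⌊Real.exp (a + h)⌋₊).filter (fun p => p.Prime ∧ p ∈ S), Real.log p) -
        ∑ p ∈ (Finset.Ioc 0 ⌊Real.exp a⌋₊).filter (fun p => p.Prime ∧ p ∈ S), Real.log p := by
    rw [thetaGap, sum_filter, sum_filter, sum_filter, eq_sub_iff_add_eq', ← sum_union
      (Finset.Ioc_disjoint_Ioc_of_le le_rfl), Finset.Ioc_union_Ioc_eq_Ioc (Nat.zero_le _)
        (Nat.floor_mono (Real.exp_le_exp.2 (le_add_of_nonneg_right hh0.le)))]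
  rw [hsplit]
  nlinarith [mul_le_mul_of_nonneg_left hkey (Real.exp_pos a).le,
    mul_le_mul_of_nonneg_left e3 hκ.le]

/-- All primes are rich. -/
theorem primeRich_univ : PrimeRich Set.univ := by
  classical
  obtain ⟨c, C, hc, hC, hth⟩ := FA.DLVP.Summary.theta_error
  refine primeRich_of_error Set.univ one_pos hc hC one_half_pos ?_
  filter_upwards [eventually_ge_atTop (2 : ℝ)] with y hy
  rw [← Real.sqrt_eq_rpow, one_mul]
  refine le_of_eq_of_le ?_ (hth y hy)
  simp [Chebyshev.theta]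

/-- **The decay.** -/
theorem exists_decay {S : Set ℕ} (hS : PrimeRich S) (hR : 0 ≤ R) (hR4 : R < 1 / 4)
    (hb : ∀ k, ‖b k‖ ≤ B * R ^ k) (hs : Summable (primeTerm S b)) :
    ∃ β C : ℝ, R < β ∧ ∀ x : ℝ, 0 ≤ x → ‖expSeries b x‖ ≤ C * Real.exp (-(β * x)) := by
  obtain ⟨β, hβ⟩ : ∃ β, β = (R + 1 / 4) / 2 := ⟨_, rfl⟩
  obtain ⟨ε, hε⟩ : ∃ ε, ε = (1 / 4 - R) / 16 := ⟨_, rfl⟩
  have hε0 : 0 < ε := hε ▸ by linarith
  obtain ⟨A, hA⟩ : ∃ A, A = Real.exp (1 / ε) := ⟨_, rfl⟩
  have hA0 : 0 < A := hA ▸ Real.exp_pos _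
  have hB := nonneg_of_bound hb
  obtain ⟨κ, hκ0, hκ⟩ := hS
  obtain ⟨S₀, hS₀⟩ : ∃ S₀, S₀ = ∑' q, primeTerm S b q := ⟨_, rfl⟩
  have hS0 : 0 ≤ S₀ := hS₀ ▸ tsum_nonneg (primeTerm_nonneg S b)
  obtain ⟨K, hK⟩ : ∃ K, K = Real.exp 4 * (4 * (S₀ + 1) * (ε + 1) * Real.exp (3 / 4) / κ +
      B * Real.exp R * Real.exp A) := ⟨_, rfl⟩
  have hK0 : 0 ≤ K := hK ▸ by positivity
  have hev : ∀ᶠ x : ℝ in atTop, ‖expSeries b x‖ ≤ Real.exp (-(β * x)) := by
    have hlim : Tendsto (fun x : ℝ => K * ((x + 1) ^ 2 * Real.exp (-(4 * ε) * x))) atTop (𝓝 0) := by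
      have h2 := tendsto_rpow_mul_exp_neg_mul_atTop_nhds_zero 2 (4 * ε) (by positivity)
      have h1 := tendsto_rpow_mul_exp_neg_mul_atTop_nhds_zero 1 (4 * ε) (by positivity)
      have h0 := tendsto_rpow_mul_exp_neg_mul_atTop_nhds_zero 0 (4 * ε) (by positivity)
      have := ((h2.add (h1.const_mul 2)).add h0).const_mul K
      simp only [Real.rpow_two, Real.rpow_one, Real.rpow_zero, mul_zero, add_zero] at this
      exact this.congr fun x => by ring
    filter_upwards [hlim.eventually (eventually_le_nhds one_pos), hκ ε hε0.le,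
      eventually_ge_atTop 1] with x hx hgap hx1
    obtain ⟨n, hn⟩ : ∃ n, n = ⌈ε * x⌉₊ := ⟨_, rfl⟩
    have hn0 : 0 < n := hn ▸ Nat.ceil_pos.2 (by positivity)
    have hn1 : ε * x ≤ n := hn ▸ Nat.le_ceil _
    have hn2 : (n : ℝ) ≤ ε * x + 1 := hn ▸ (Nat.ceil_lt_add_one (by positivity)).le
    have hnR : (0 : ℝ) < n := Nat.cast_pos.2 hn0
    obtain ⟨δ, hδ⟩ : ∃ δ, δ = (S₀ + 1) * (x + 1) * Real.exp (3 / 4 * (x + 1)) /
        (κ * Real.exp x / (2 * n)) := ⟨_, rfl⟩
    have hp : ∀ i < n, ∃ p : ℕ, Real.log p - x ∈ Set.Icc ((i : ℝ) / n) (((i : ℝ) + 1 / 2) / n) ∧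
        ‖expSeries b (Real.log p)‖ ≤ δ := by
      intro i hi
      have hi' : (i : ℝ) + 1 ≤ n := by exact_mod_cast hi
      have hie : x + (i : ℝ) / n + 1 / (2 * n) = x + ((i : ℝ) + 1 / 2) / n := by
        field_simp
        ring
      have hin : ((i : ℝ) + 1 / 2) / n ≤ 1 := (div_le_one hnR).2 (by linarith)
      have hia : x ≤ x + (i : ℝ) / n := le_add_of_nonneg_right (by positivity)
      have hθ : κ * Real.exp x / (2 * n) ≤ thetaGap S (Real.exp (x + (i : ℝ) / n))
          (Real.exp (x + (i : ℝ) / n + 1 / (2 * n))) := by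
        refine le_trans (le_of_eq_of_le ?_ (mul_le_mul_of_nonneg_left (mul_le_mul_of_nonneg_right
          (Real.exp_le_exp.2 hia) (show (0 : ℝ) ≤ 1 / (2 * n) by positivity)) hκ0.le))
          (hgap _ (1 / (2 * n)) hia ?_ ?_)
        · field_simp
        · rw [div_le_one (by positivity)]
          have : (1 : ℝ) ≤ n := by exact_mod_cast hn0
          linarith
        · gcongr
      obtain ⟨p, hp1, hp2⟩ := exists_prime_small hs (x := x) (by linarith)
        (div_pos (mul_pos hκ0 (Real.exp_pos x)) (by positivity)) hθ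
      refine ⟨p, ⟨by linarith [hp1.1], by linarith [hp1.2]⟩, ?_⟩
      rw [hδ, hS₀]
      exact hp2
    choose p hp1 hp2 using hp
    obtain ⟨t, ht⟩ : ∃ t : ℕ → ℝ, t = fun i => if h : i < n then Real.log (p i h) - x else 0 :=
      ⟨_, rfl⟩
    obtain ⟨τ, hτ⟩ : ∃ τ, τ = B * Real.exp (R * (x + 1)) / n.factorial := ⟨_, rfl⟩
    have hmain := norm_const_le_of_nodes hn0
      (fun k => expSeries (fun i => b (i + k)) x / (k.factorial : ℂ)) t
      (fun i hi => by rw [ht]; simp only [dif_pos hi]; exact hp1 i hi) (δ := δ + τ) fun i hi => by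
        obtain ⟨u, hu⟩ : ∃ u, u = Real.log (p i hi) - x := ⟨_, rfl⟩
        have hu01 : u ∈ Set.Icc (0 : ℝ) 1 := by
          refine ⟨le_trans (by positivity) (hu ▸ (hp1 i hi).1), hu ▸ (hp1 i hi).2.trans ?_⟩
          have hi' : (i : ℝ) + 1 ≤ n := by exact_mod_cast hi
          exact (div_le_one hnR).2 (by linarith)
        have h1 := norm_expSeries_taylor_le hR n b B hb x u (by linarith) hu01
        have e : x + u = Real.log (p i hi) := by rw [hu]; ring
        rw [e] at h1
        have h2 : B * Real.exp (R * (x + 1)) * R ^ n * u ^ n / n.factorial ≤ τ := by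
          rw [hτ, mul_assoc _ (R ^ n), ← mul_pow]
          refine div_le_div_of_nonneg_right (mul_le_of_le_one_right (by positivity)
            (pow_le_one₀ (mul_nonneg hR hu01.1) ?_)) (Nat.cast_nonneg _)
          exact mul_le_one₀ (by linarith) hu01.1 hu01.2
        rw [ht]
        simp only [dif_pos hi, ← hu, div_mul_eq_mul_div]
        have h3 := norm_le_norm_add_norm_sub' (∑ k ∈ range n,
          expSeries (fun i => b (i + k)) x * (u : ℂ) ^ k / (k.factorial : ℂ))
          (expSeries b (Real.log (p i hi)))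
        rw [norm_sub_rev] at h3
        linarith [hp2 i hi, h1.trans h2]
    simp only [Nat.factorial_zero, Nat.cast_one, div_one, add_zero] at hmain
    refine hmain.trans ?_
    have hexp : Real.exp (4 * n) ≤ Real.exp 4 * Real.exp (4 * ε * x) := by
      rw [← Real.exp_add]
      exact Real.exp_le_exp.2 (by linarith)
    have hδ' : δ ≤ 4 * (S₀ + 1) * (ε + 1) * Real.exp (3 / 4) / κ *
        ((x + 1) ^ 2 * Real.exp (-(1 / 4) * x)) := by
      have e : Real.exp (3 / 4 * (x + 1)) =
          Real.exp (3 / 4) * (Real.exp (-(1 / 4) * x) * Real.exp x) := by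
        rw [← Real.exp_add, ← Real.exp_add]; ring_nf
      have h2n : 2 * (n : ℝ) ≤ 4 * (ε + 1) * (x + 1) := by nlinarith
      rw [hδ, e, div_le_iff₀ (by positivity), mul_div_assoc', le_div_iff₀ (by positivity)]
      have := mul_le_mul_of_nonneg_left h2n (show 0 ≤ (S₀ + 1) * (x + 1) *
        (Real.exp (3 / 4) * (Real.exp (-(1 / 4) * x) * Real.exp x)) by positivity)
      refine this.trans (le_of_eq ?_)
      field_simp
    have hτ' : τ ≤ B * Real.exp R * Real.exp A * ((x + 1) ^ 2 * Real.exp (-(1 / 4) * x)) := by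
      have h1 : ((n.factorial : ℝ))⁻¹ ≤ Real.exp A * Real.exp (-x) := by
        have h2 := Real.pow_div_factorial_le_exp A hA0.le n
        have h3 : Real.exp x ≤ A ^ n := by
          rw [hA, ← Real.exp_nat_mul]
          refine Real.exp_le_exp.2 ?_
          rw [mul_one_div, le_div_iff₀ hε0]
          linarith
        rw [Real.exp_neg, ← div_eq_mul_inv, le_div_iff₀ (Real.exp_pos x), mul_comm]
        refine le_trans ?_ h2
        rw [div_eq_mul_inv]
        exact mul_le_mul_of_nonneg_right h3 (by positivity)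
      rw [hτ, div_eq_mul_inv, mul_assoc B, mul_assoc B, mul_assoc B]
      refine mul_le_mul_of_nonneg_left
        ((mul_le_mul_of_nonneg_left h1 (Real.exp_pos _).le).trans ?_) hB
      have h5 : Real.exp (R * (x + 1)) * Real.exp (-x) ≤
          Real.exp R * Real.exp (-(1 / 4) * x) := by
        rw [← Real.exp_add, ← Real.exp_add]
        exact Real.exp_le_exp.2 (by nlinarith)
      calc Real.exp (R * (x + 1)) * (Real.exp A * Real.exp (-x))
          = Real.exp A * (Real.exp (R * (x + 1)) * Real.exp (-x)) := by ring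
        _ ≤ Real.exp A * (Real.exp R * ((x + 1) ^ 2 * Real.exp (-(1 / 4) * x))) := by
          refine mul_le_mul_of_nonneg_left (h5.trans (mul_le_mul_of_nonneg_left ?_
            (Real.exp_pos _).le)) (Real.exp_pos _).le
          exact le_mul_of_one_le_left (Real.exp_pos _).le (one_le_pow₀ (by linarith))
        _ = _ := by ring
    refine (mul_le_mul hexp (add_le_add hδ' hτ') (by rw [hδ, hτ]; positivity)
      (by positivity)).trans ?_
    calc Real.exp 4 * Real.exp (4 * ε * x) * _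
        = K * ((x + 1) ^ 2 * Real.exp (-(4 * ε) * x)) *
            (Real.exp (8 * ε * x) * Real.exp (-(1 / 4) * x)) := by
          have e2 : Real.exp (-(4 * ε) * x) * Real.exp (8 * ε * x) = Real.exp (4 * ε * x) := by
            rw [← Real.exp_add]; ring_nf
          rw [hK, ← e2]
          ring
      _ ≤ 1 * (Real.exp (8 * ε * x) * Real.exp (-(1 / 4) * x)) :=
          mul_le_mul_of_nonneg_right hx (by positivity)
      _ = Real.exp (-(β * x)) := by
          rw [one_mul, ← Real.exp_add, hβ, hε]; ring_nf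
  obtain ⟨X, hX⟩ := eventually_atTop.1 hev
  refine ⟨β, max 1 (B * Real.exp (R * |X|) * Real.exp (β * |X|)), hβ ▸ by linarith, fun x hx => ?_⟩
  have hβ0 : 0 ≤ β := hβ ▸ by linarith
  rcases le_total X x with h | h
  · exact (hX x h).trans (le_mul_of_one_le_left (Real.exp_pos _).le (le_max_left _ _))
  · have hxX : x ≤ |X| := h.trans (le_abs_self X)
    refine (norm_expSeries_le hR hb _).trans ?_
    rw [Complex.norm_real, Real.norm_of_nonneg hx]
    calc B * Real.exp (R * x)
        ≤ B * Real.exp (R * |X|) * (Real.exp (β * |X|) * Real.exp (-(β * x))) := by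
          rw [← Real.exp_add, mul_assoc B, ← Real.exp_add]
          refine mul_le_mul_of_nonneg_left (Real.exp_le_exp.2 ?_) hB
          nlinarith
      _ ≤ _ := by
          rw [← mul_assoc]
          exact mul_le_mul_of_nonneg_right (le_max_right _ _) (Real.exp_pos _).le

/-- **Divergence**: only `b = 0` gives a convergent sum. -/
theorem coeff_eq_zero_of_summable {S : Set ℕ} (hS : PrimeRich S) (hR : 0 ≤ R) (hR4 : R < 1 / 4)
    (hb : ∀ k, ‖b k‖ ≤ B * R ^ k) (hs : Summable (primeTerm S b)) : ∀ k, b k = 0 := by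
  obtain ⟨β, C, hβ, hdec⟩ := exists_decay hS hR hR4 hb hs
  exact coeff_eq_zero_of_decay hR hb hβ hdec

end FA.Voronin
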