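import Fermat.Agent.Root.SummaryVoronin
import Fermat.Agent.Voronin.Bagchi

/-!
# The solutions of `ζ^(k) s = w` in vertical strips

If `ζ (s + 3/4 + it)` is near an `f` whose `k`-th derivative takes the value `w` at `s₀` and not on
a small circle about it, `ζ^(k)` takes `w` near `s₀ + 3/4 + it`; as these `t` have positive lower
density, at least a constant times `T` distinct solutions have height at most `T`.
-/

set_option autoImplicit false

noncomputable section

namespace FA.Voronin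

open Filter Complex MeasureTheory
open scoped Topology

/-- The distinct solutions of `ζ^(k) s = w` with `σ₁ < re s < σ₂` and `0 < im s ≤ T`. -/
def valueSet (k : ℕ) (w : ℂ) (σ₁ σ₂ T : ℝ) : Set ℂ :=
  {s | σ₁ < s.re ∧ s.re < σ₂ ∧ 0 < s.im ∧ s.im ≤ T ∧ iteratedDeriv k riemannZeta s = w}

theorem analyticOnNhd_zetaDeriv (k : ℕ) :
    AnalyticOnNhd ℂ (iteratedDeriv k riemannZeta) ({1}ᶜ : Set ℂ) := by
  rw [iteratedDeriv_eq_iterate]
  exact (DifferentiableOn.analyticOnNhd (fun _ hz =>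
    (differentiableAt_riemannZeta hz).differentiableWithinAt)
      isOpen_compl_singleton).iterated_deriv k

theorem finite_valueSet (k : ℕ) (w : ℂ) {σ₁ σ₂ : ℝ} (hσ : σ₂ < 1) (T : ℝ) :
    (valueSet k w σ₁ σ₂ T).Finite := by
  by_contra hinf
  obtain ⟨K, hK⟩ : ∃ K : Set ℂ, K = Set.Icc σ₁ σ₂ ×ℂ Set.Icc 0 T := ⟨_, rfl⟩
  obtain ⟨x, hx, hacc⟩ := Set.Infinite.exists_accPt_of_subset_isCompact hinf
    (hK ▸ isCompact_Icc.reProdIm isCompact_Icc) fun s hs => by
      rw [hK, Complex.mem_reProdIm]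
      exact ⟨⟨hs.1.le, hs.2.1.le⟩, hs.2.2.1.le, hs.2.2.2.1⟩
  have hx1 : x ∈ ({1}ᶜ : Set ℂ) := fun h => by
    rw [hK, Complex.mem_reProdIm] at hx
    rw [Set.mem_singleton_iff.1 h] at hx
    simp at hx
    linarith [hx.1.2]
  have heq := (analyticOnNhd_zetaDeriv k).eqOn_of_preconnected_of_frequently_eq
    (g := fun _ => w) analyticOnNhd_const
    (isConnected_compl_singleton_of_one_lt_rank (by simp) 1).isPreconnected hx1
    ((accPt_iff_frequently_nhdsNE.1 hacc).mono fun y hy => hy.2.2.2.2)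
  obtain ⟨t, ht, hne⟩ := Summary.zeta_jets_dense (k + 1) (fun _ => w + 2) one_pos 1
  have h := hne k (Nat.lt_succ_self k)
  rw [heq (show (3 / 4 + t * I : ℂ) ∈ ({1}ᶜ : Set ℂ) from fun hh => by
    have := congrArg Complex.im (Set.mem_singleton_iff.1 hh)
    simp at this
    linarith)] at h
  norm_num at h

theorem norm_iteratedDeriv_sub_le {k : ℕ} {r δ η : ℝ} (hδ : 0 < δ) {G f : ℂ → ℂ}
    (hG : ∀ z, ‖z‖ ≤ r → DifferentiableAt ℂ G z) (hf : Differentiable ℂ f)
    (hnear : ∀ z, ‖z‖ ≤ r → ‖G z - f z‖ ≤ η) {z : ℂ} (hz : ‖z‖ + δ ≤ r) :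
    ‖iteratedDeriv k G z - iteratedDeriv k f z‖ ≤ k.factorial * η / δ ^ k := by
  have hin : ∀ y ∈ Metric.closedBall z δ, ‖y‖ ≤ r := fun y hy => by
    rw [Metric.mem_closedBall, dist_eq_norm] at hy
    linarith [norm_le_norm_add_norm_sub' y z]
  have hanG : AnalyticAt ℂ G z :=
    DifferentiableOn.analyticAt (s := Metric.ball z δ)
      (fun y hy => (hG y (hin y (Metric.ball_subset_closedBall hy))).differentiableWithinAt)
      (Metric.ball_mem_nhds z hδ)
  rw [← iteratedDeriv_sub hanG.contDiffAt hf.contDiff.contDiffAt]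
  refine norm_iteratedDeriv_le_of_forall_mem_sphere_norm_le k hδ
    (DifferentiableOn.diffContOnCl fun y hy => ?_)
    fun y hy => hnear y (hin y (Metric.sphere_subset_closedBall hy))
  rw [closure_ball _ hδ.ne'] at hy
  exact ((hG y (hin y hy)).sub (hf y)).differentiableWithinAt

/-- The count from one model function. -/
theorem exists_valueCount_ge {k : ℕ} {w : ℂ} {r δ σ : ℝ} {f : ℂ → ℂ} (hr4 : r < 1 / 4)
    (hδ : 0 < δ) (hsr : |σ - 3 / 4| + 2 * δ ≤ r) (hfd : Differentiable ℂ f)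
    (hf0 : ∀ s ∈ Metric.closedBall (0 : ℂ) r, f s ≠ 0)
    (hval : iteratedDeriv k f ((σ - 3 / 4 : ℝ) : ℂ) = w)
    (hsph : ∀ s ∈ Metric.sphere (((σ - 3 / 4 : ℝ) : ℂ)) δ, iteratedDeriv k f s ≠ w)
    {σ₁ σ₂ : ℝ} (h1 : σ₁ < σ - δ) (h2 : σ + δ < σ₂) (h21 : σ₂ < 1) :
    ∃ c : ℝ, 0 < c ∧ ∀ᶠ T : ℝ in atTop, c * T ≤ (valueSet k w σ₁ σ₂ T).ncard := by
  have hr : 0 < r := by linarith [abs_nonneg (σ - 3 / 4)]
  obtain ⟨s₀, hs₀⟩ : ∃ s₀ : ℂ, s₀ = ((σ - 3 / 4 : ℝ) : ℂ) := ⟨_, rfl⟩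
  rw [← hs₀] at hval hsph
  have hin : ∀ z ∈ Metric.closedBall s₀ δ, ‖z‖ + δ ≤ r := fun z hz => by
    rw [Metric.mem_closedBall, dist_eq_norm] at hz
    have : ‖s₀‖ = |σ - 3 / 4| := by rw [hs₀, Complex.norm_real, Real.norm_eq_abs]
    linarith [norm_le_norm_add_norm_sub' z s₀]
  have hfk : Differentiable ℂ (iteratedDeriv k f) :=
    ContDiff.differentiable_iteratedDeriv' k hfd.contDiff
  obtain ⟨z₀, hz₀, hmin⟩ := (isCompact_sphere s₀ δ).exists_isMinOn
    (NormedSpace.sphere_nonempty.2 hδ.le) (hfk.continuous.sub continuous_const).norm.continuousOn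
    (f := fun z => ‖iteratedDeriv k f z - w‖)
  obtain ⟨m, hm⟩ : ∃ m, m = ‖iteratedDeriv k f z₀ - w‖ := ⟨_, rfl⟩
  have hm0 : 0 < m := hm ▸ norm_pos_iff.2 (sub_ne_zero.2 (hsph z₀ hz₀))
  obtain ⟨η, hη⟩ : ∃ η, η = m / 4 * δ ^ k / k.factorial := ⟨_, rfl⟩
  have hη0 : 0 < η := hη ▸ by positivity
  obtain ⟨c, hc, hev⟩ := exists_zeta_universal_density hr hr4 hfd.continuous.continuousOn
    hfd.differentiableOn hf0 hη0 (δ + 1)
  refine ⟨c / (4 * δ), by positivity, ?_⟩
  filter_upwards [(tendsto_atTop_add_const_right atTop (-δ) tendsto_id).eventually hev,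
    eventually_ge_atTop (2 * δ)] with T hT hTδ
  simp only [id_eq] at hT
  obtain ⟨S, hS⟩ : ∃ S : Finset ℂ, S = (finite_valueSet k w h21 T (σ₁ := σ₁)).toFinset := ⟨_, rfl⟩
  have hcard : ((valueSet k w σ₁ σ₂ T).ncard : ℝ) = S.card := by
    rw [hS, Set.ncard_eq_toFinset_card _ (finite_valueSet k w h21 T)]
  have hsub : {t ∈ Set.Icc (δ + 1) (T + -δ) | ∀ s : ℂ, ‖s‖ ≤ r →
      ‖riemannZeta (s + 3 / 4 + t * I) - f s‖ < η} ⊆
      ⋃ ρ ∈ S, Set.Icc (ρ.im - δ) (ρ.im + δ) := by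
    rintro t ⟨⟨ht1, ht2⟩, ht⟩
    have hne : ∀ z : ℂ, ‖z‖ ≤ r → z + (3 / 4 + t * I) ≠ 1 := fun z hz h => by
      have h' := congrArg Complex.re h
      simp at h'
      linarith [(abs_le.1 ((Complex.abs_re_le_norm z).trans hz)).2]
    obtain ⟨z, hz, hz0⟩ := exists_zero_of_near hδ (g := fun z => iteratedDeriv k f z - w) (m := m)
      (G := fun z => iteratedDeriv k riemannZeta (z + (3 / 4 + t * I)) - w)
      (fun z hz => ((DifferentiableAt.comp z
        ((analyticOnNhd_zetaDeriv k _ (hne z (by linarith [hin z hz]))).differentiableAt)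
        (differentiableAt_id.add_const _)).sub_const w).differentiableWithinAt)
      (sub_eq_zero.2 hval) (fun z hz => hm ▸ hmin hz) (fun z hz => by
        rw [sub_sub_sub_cancel_right, ← congrFun (iteratedDeriv_comp_add_const k riemannZeta
          (3 / 4 + t * I)) z]
        refine (norm_iteratedDeriv_sub_le hδ
          (G := fun y => riemannZeta (y + (3 / 4 + t * I)))
          (fun y hy => (differentiableAt_riemannZeta (hne y hy)).comp y
            (differentiableAt_id.add_const _)) hfd (η := η)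
          (fun y hy => ?_) (hin z hz)).trans_lt ?_
        · exact le_of_eq_of_le (by simp [add_assoc]) (ht y hy).le
        · rw [hη, mul_div_cancel₀ _ (Nat.cast_ne_zero.2 k.factorial_ne_zero),
            mul_div_cancel_right₀ _ (pow_ne_zero _ hδ.ne')]
          linarith)
    rw [sub_eq_zero] at hz0
    rw [Metric.mem_closedBall, dist_eq_norm] at hz
    have hzr := abs_le.1 ((Complex.abs_re_le_norm (z - s₀)).trans hz)
    have hzi := abs_le.1 ((Complex.abs_im_le_norm (z - s₀)).trans hz)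
    simp [hs₀] at hzr hzi
    refine Set.mem_biUnion (x := z + (3 / 4 + t * I)) ?_ ?_
    · rw [hS]
      simp only [Set.Finite.coe_toFinset, valueSet, Set.mem_ofPred_eq, Complex.add_re,
        Complex.add_im]
      refine ⟨?_, ?_, ?_, ?_, hz0⟩ <;> simp <;> linarith
    · simp
      constructor <;> linarith
  have h := hT.trans ((measureReal_mono hsub ((S.finite_toSet.isCompact_biUnion fun ρ _ =>
    isCompact_Icc).measure_lt_top.ne)).trans (measureReal_biUnion_finset_le _ _))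
  rw [Finset.sum_congr rfl (g := fun _ => 2 * δ) fun ρ _ => by
    rw [Real.volume_real_Icc_of_le (by linarith)]; ring, Finset.sum_const, nsmul_eq_mul] at h
  rw [hcard, div_mul_eq_mul_div, div_le_iff₀ (by positivity)]
  nlinarith

/-- The values `w ≠ 0` of `ζ`, and all values of its derivatives. -/
theorem exists_valueCount_ge_strip {k : ℕ} {w : ℂ} (hw : k = 0 → w ≠ 0) {σ₁ σ₂ : ℝ}
    (h1 : 1 / 2 < σ₁) (h12 : σ₁ < σ₂) (h2 : σ₂ < 1) :
    ∃ c : ℝ, 0 < c ∧ ∀ᶠ T : ℝ in atTop, c * T ≤ (valueSet k w σ₁ σ₂ T).ncard := by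
  obtain ⟨σ, hσ⟩ : ∃ σ, σ = (σ₁ + σ₂) / 2 := ⟨_, rfl⟩
  obtain ⟨δ, hδ⟩ : ∃ δ, δ = (σ₂ - σ₁) / 4 := ⟨_, rfl⟩
  obtain ⟨r, hr⟩ : ∃ r, r = |σ - 3 / 4| + 2 * δ := ⟨_, rfl⟩
  have hδ0 : 0 < δ := hδ ▸ by linarith
  have hr4 : r < 1 / 4 := by
    have : |σ - 3 / 4| < 1 / 4 - 2 * δ := by
      rw [abs_lt]; constructor <;> linarith
    linarith
  obtain ⟨s₀, hs₀⟩ : ∃ s₀ : ℂ, s₀ = ((σ - 3 / 4 : ℝ) : ℂ) := ⟨_, rfl⟩
  rcases Nat.eq_zero_or_pos k with rfl | hk
  · refine exists_valueCount_ge hr4 hδ0 hr.ge (f := fun s => w * cexp (s - s₀)) (by fun_prop)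
      (fun s _ => mul_ne_zero (hw rfl) (Complex.exp_ne_zero _)) ?_ ?_
      (σ₁ := σ₁) (σ₂ := σ₂) (by linarith) (by linarith) h2
    · simp [← hs₀]
    · intro s hs h
      rw [Metric.mem_sphere, dist_eq_norm, ← hs₀] at hs
      simp only [iteratedDeriv_zero, mul_eq_left₀ (hw rfl), Complex.exp_eq_one_iff] at h
      obtain ⟨n, hn⟩ := h
      rw [hn] at hs
      simp [abs_of_pos Real.pi_pos] at hs
      rcases eq_or_ne n 0 with rfl | hn0
      · simp at hs
        linarith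
      · have h1 : (1 : ℝ) ≤ |(n : ℝ)| := by
          exact_mod_cast Int.one_le_abs hn0
        nlinarith [Real.pi_gt_three]
  · obtain ⟨Q, hQ⟩ : ∃ Q : ℂ → ℂ, Q = fun s => w * (s - s₀) ^ k / (k.factorial : ℂ) +
        (s - s₀) ^ (k + 1) / ((k + 1).factorial : ℂ) := ⟨_, rfl⟩
    have hQd : Differentiable ℂ Q := hQ ▸ by fun_prop
    obtain ⟨A, hA⟩ := (isCompact_closedBall (0 : ℂ) r).exists_bound_of_continuousOn
      hQd.continuous.continuousOn
    have hder : ∀ s, iteratedDeriv k (fun s => ((|A| + 1 : ℝ) : ℂ) + Q s) s = w + (s - s₀) := by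
      intro s
      rw [iteratedDeriv_const_add hk, hQ, iteratedDeriv_fun_add
        (by fun_prop) (by fun_prop), iteratedDeriv_div_const, iteratedDeriv_div_const,
        iteratedDeriv_const_mul_field, iteratedDeriv_comp_sub_const (f := fun z : ℂ => z ^ k),
        iteratedDeriv_comp_sub_const (f := fun z : ℂ => z ^ (k + 1))]
      simp only [iteratedDeriv_pow, Nat.descFactorial_self, Nat.sub_self, pow_zero,
        Nat.add_sub_cancel_left, pow_one]
      have e : (k + 1).descFactorial k = (k + 1).factorial := by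
        have := Nat.factorial_mul_descFactorial (show k ≤ k + 1 by omega)
        simpa using this
      have h1 : (k.factorial : ℂ) ≠ 0 := Nat.cast_ne_zero.2 k.factorial_ne_zero
      have h2 : ((k + 1).factorial : ℂ) ≠ 0 := Nat.cast_ne_zero.2 (k + 1).factorial_ne_zero
      rw [e]
      field_simp
    refine exists_valueCount_ge hr4 hδ0 hr.ge
      (f := fun s => ((|A| + 1 : ℝ) : ℂ) + Q s) (hQd.const_add _) (fun s hs h => ?_) ?_ ?_
      (σ₁ := σ₁) (σ₂ := σ₂) (by linarith) (by linarith) h2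
    · have := hA s hs
      rw [add_eq_zero_iff_neg_eq] at h
      rw [← h, norm_neg, Complex.norm_real, Real.norm_of_nonneg (by positivity)] at this
      linarith [le_abs_self A]
    · rw [hder, ← hs₀, sub_self, add_zero]
    · intro s hs h
      rw [hder, add_eq_left, sub_eq_zero] at h
      rw [h, Metric.mem_sphere, hs₀, dist_self] at hs
      linarith

end FA.Voronin
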