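import Fermat.Agent.Voronin.Decay
import Mathlib.Analysis.Normed.Lp.lpSpace
import Mathlib.Analysis.Complex.TaylorSeries
import Mathlib.Analysis.PSeries

/-!
# The primes as vectors of square summable sequences

`p^(-(3/4 + s)) = ∑ (p^(-3/4) (-R log p) ^ k / k!) (s / R) ^ k`, and the sequence in brackets has
squared norm at most `p^(2R - 3/2)`.
-/

set_option autoImplicit false

noncomputable section

namespace FA.Voronin

open Filter Finset Complex
open scoped Topology ENNReal

/-- Square summable sequences. -/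
abbrev Coords : Type := lp (fun _ : ℕ => ℂ) 2

variable {R : ℝ}

theorem memℓp_two_of_summable {f : ℕ → ℂ} (hf : Summable fun k => ‖f k‖ ^ 2) : Memℓp f 2 :=
  memℓp_gen (by simpa using hf)

/-- A summable sequence is square summable. -/
theorem summable_sq_of_summable_norm {f : ℕ → ℂ} (hf : Summable fun k => ‖f k‖) :
    Summable fun k => ‖f k‖ ^ 2 :=
  Summable.of_nonneg_of_le (fun _ => sq_nonneg _) (fun k => by
    rw [sq]
    exact mul_le_mul_of_nonneg_right (hf.le_tsum k fun j _ => norm_nonneg _) (norm_nonneg _))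
    (hf.mul_left (∑' j, ‖f j‖))

theorem summable_coord (R x : ℝ) :
    Summable fun k : ℕ => ‖((-(R * x)) ^ k / k.factorial : ℂ)‖ :=
  Summable.congr (Real.summable_pow_div_factorial |R * x|) fun k => by
    rw [norm_div, norm_pow, norm_neg, Complex.norm_natCast, ← Complex.ofReal_mul,
      Complex.norm_real, Real.norm_eq_abs]

/-- `k ↦ (-R x) ^ k / k!`. -/
def coordVec (R x : ℝ) : Coords :=
  ⟨fun k => (-(R * x)) ^ k / k.factorial,
    memℓp_two_of_summable (summable_sq_of_summable_norm (summable_coord R x))⟩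

theorem coordVec_apply (R x : ℝ) (k : ℕ) :
    coordVec R x k = ((-(R * x)) ^ k / k.factorial : ℂ) := rfl

theorem norm_sq_eq (y : Coords) : ‖y‖ ^ 2 = ∑' k, ‖y k‖ ^ 2 := by
  simpa using lp.norm_rpow_eq_tsum (p := 2) (by norm_num) y

theorem norm_coordVec_le (hR : 0 ≤ R) {x : ℝ} (hx : 0 ≤ x) :
    ‖coordVec R x‖ ≤ Real.exp (R * x) := by
  refine le_of_pow_le_pow_left₀ two_ne_zero (Real.exp_pos _).le ?_
  rw [norm_sq_eq]
  have hs := Real.summable_pow_div_factorial (R * x)
  have h0 : ∀ k : ℕ, 0 ≤ (R * x) ^ k / k.factorial := fun k => by positivity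
  have hle : ∀ k : ℕ, (R * x) ^ k / k.factorial ≤ Real.exp (R * x) := fun k =>
    Real.pow_div_factorial_le_exp _ (by positivity) k
  have hnorm : ∀ k, ‖coordVec R x k‖ = (R * x) ^ k / k.factorial := fun k => by
    rw [coordVec_apply, norm_div, norm_pow, norm_neg, Complex.norm_natCast, ← Complex.ofReal_mul,
      Complex.norm_real, Real.norm_of_nonneg (by positivity)]
  simp only [hnorm]
  refine (Real.tsum_le_of_sum_range_le (fun k => sq_nonneg _) fun n => ?_)
  calc ∑ k ∈ range n, ((R * x) ^ k / k.factorial) ^ 2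
      ≤ ∑ k ∈ range n, Real.exp (R * x) * ((R * x) ^ k / k.factorial) :=
        sum_le_sum fun k _ => by rw [sq]; exact mul_le_mul_of_nonneg_right (hle k) (h0 k)
    _ ≤ Real.exp (R * x) ^ 2 := by
        rw [← mul_sum, sq]
        exact mul_le_mul_of_nonneg_left (Real.sum_le_exp_of_nonneg (by positivity) n)
          (Real.exp_pos _).le

/-- The vector of the prime `n`. -/
def primeVec (R : ℝ) (n : ℕ) : Coords :=
  if n.Prime then (((n : ℝ) ^ (-(3 / 4) : ℝ) : ℝ) : ℂ) • coordVec R (Real.log n) else 0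

theorem summable_norm_sq_primeVec (hR : 0 ≤ R) (hR4 : R < 1 / 4) :
    Summable fun n => ‖primeVec R n‖ ^ 2 := by
  refine Summable.of_nonneg_of_le (fun n => sq_nonneg _) (fun n => ?_)
    (Real.summable_nat_rpow.2 (show 2 * R - 3 / 2 < -1 by linarith))
  rw [primeVec]
  split_ifs with h
  · have hn : (0 : ℝ) < n := Nat.cast_pos.2 h.pos
    rw [norm_smul, Complex.norm_real, Real.norm_of_nonneg (by positivity)]
    refine (pow_le_pow_left₀ (by positivity) (mul_le_mul_of_nonneg_left (norm_coordVec_le hR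
      (Real.log_nonneg (by exact_mod_cast h.one_le))) (by positivity)) 2).trans (le_of_eq ?_)
    rw [Real.rpow_def_of_pos hn, Real.rpow_def_of_pos hn, ← Real.exp_add, ← Real.exp_nat_mul]
    push_cast
    ring_nf
  · rw [norm_zero, zero_pow two_ne_zero]
    positivity

/-- `∑ y k q ^ k`. -/
def evalCoord (q : ℂ) (y : Coords) : ℂ := ∑' k, y k * q ^ k

theorem summable_evalCoord {q : ℂ} (hq : ‖q‖ < 1) (y : Coords) :
    Summable fun k => ‖y k * q ^ k‖ :=
  Summable.of_nonneg_of_le (fun _ => norm_nonneg _) (fun k => by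
    rw [norm_mul, norm_pow]
    exact mul_le_mul_of_nonneg_right (lp.norm_apply_le_norm (by norm_num) y k) (by positivity))
    ((summable_geometric_of_lt_one (norm_nonneg q) hq).mul_left ‖y‖)

theorem norm_evalCoord_le {q : ℂ} {ρ : ℝ} (hρ : ρ < 1) (hq : ‖q‖ ≤ ρ) (y : Coords) :
    ‖evalCoord q y‖ ≤ ‖y‖ / (1 - ρ) := by
  have hρ0 : 0 ≤ ρ := (norm_nonneg q).trans hq
  refine (norm_tsum_le_tsum_norm (summable_evalCoord (hq.trans_lt hρ) y)).trans ?_
  refine ((summable_evalCoord (hq.trans_lt hρ) y).tsum_le_tsum (fun k => ?_)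
    ((summable_geometric_of_lt_one hρ0 hρ).mul_left ‖y‖)).trans (le_of_eq ?_)
  · rw [norm_mul, norm_pow]
    exact mul_le_mul (lp.norm_apply_le_norm (by norm_num) y k)
      (pow_le_pow_left₀ (norm_nonneg q) hq k) (by positivity) (norm_nonneg y)
  · rw [tsum_mul_left, tsum_geometric_of_lt_one hρ0 hρ, div_eq_mul_inv]

theorem evalCoord_sub {q : ℂ} (hq : ‖q‖ < 1) (x y : Coords) :
    evalCoord q (x - y) = evalCoord q x - evalCoord q y := by
  simp only [evalCoord, lp.coeFn_sub, Pi.sub_apply, sub_mul]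
  exact (summable_evalCoord hq x).of_norm.tsum_sub (summable_evalCoord hq y).of_norm

theorem evalCoord_sum {q : ℂ} (hq : ‖q‖ < 1) (s : Finset ℕ) (a : ℕ → ℂ) (v : ℕ → Coords) :
    evalCoord q (∑ n ∈ s, a n • v n) = ∑ n ∈ s, a n * evalCoord q (v n) := by
  simp only [evalCoord, lp.coeFn_sum, Finset.sum_apply, lp.coeFn_smul, Pi.smul_apply, smul_eq_mul,
    sum_mul]
  rw [Summable.tsum_finsetSum fun n _ =>
    ((summable_evalCoord hq (v n)).of_norm.mul_left (a n)).congr fun k => by ring]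
  refine sum_congr rfl fun n _ => ?_
  rw [← tsum_mul_left]
  exact tsum_congr fun k => by ring

/-- `n ^ (-(3/4 + s))` on the primes, `0` elsewhere. -/
def primePower (s : ℂ) (n : ℕ) : ℂ := if n.Prime then (n : ℂ) ^ (-(3 / 4 + s)) else 0

theorem evalCoord_primeVec (hR : 0 < R) (s : ℂ) (n : ℕ) :
    evalCoord (s / R) (primeVec R n) = primePower s n := by
  rw [primeVec, primePower]
  split_ifs with h
  · have hn : (n : ℂ) ≠ 0 := Nat.cast_ne_zero.2 h.ne_zero
    rw [evalCoord, Complex.cpow_def_of_ne_zero hn]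
    simp only [lp.coeFn_smul, Pi.smul_apply, smul_eq_mul, coordVec_apply, mul_assoc]
    rw [tsum_mul_left, tsum_congr (g := fun k => (-(s * Real.log n)) ^ k / k.factorial) fun k => by
      have : (R : ℂ) ≠ 0 := Complex.ofReal_ne_zero.2 hR.ne'
      rw [div_mul_eq_mul_div, ← mul_pow]
      congr 2
      field_simp,
      (NormedSpace.expSeries_div_hasSum_exp (-(s * Real.log n))).tsum_eq, ← Complex.exp_eq_exp_ℂ,
      Real.rpow_def_of_pos (Nat.cast_pos.2 h.pos), Complex.ofReal_exp, ← Complex.exp_add,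
      Complex.natCast_log]
    push_cast
    ring_nf
  · simp [evalCoord]

/-- A function holomorphic beyond `R` as a vector. -/
theorem exists_evalCoord_eq {R' : ℝ} (hR : 0 < R) (hRR : R < R') {h : ℂ → ℂ}
    (hh : DifferentiableOn ℂ h (Metric.ball 0 R')) :
    ∃ g : Coords, ∀ s : ℂ, ‖s‖ < R → evalCoord (s / R) g = h s := by
  obtain ⟨R₂, hR₂, hR₂'⟩ := exists_between hRR
  obtain ⟨c, hc⟩ : ∃ c : ℕ → ℂ, c = fun k => (k.factorial : ℂ)⁻¹ * iteratedDeriv k h 0 :=
    ⟨_, rfl⟩
  have hsum : ∀ z : ℂ, ‖z‖ < R' → HasSum (fun k => c k * z ^ k) (h z) := fun z hz => by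
    refine (hasSum_taylorSeries_on_ball hh (show z ∈ Metric.ball 0 R' by simpa)).congr_fun
      fun k => ?_
    simp only [hc, sub_zero, smul_eq_mul]
    ring
  have hsumR : Summable fun k => ‖c k * (R : ℂ) ^ k‖ := by
    have hR0 : 0 < R₂ := hR.trans hR₂
    have h2 := (hsum R₂
      (by rw [Complex.norm_real, Real.norm_of_nonneg hR0.le]; exact hR₂')).summable
    obtain ⟨Bd, hBd⟩ := h2.tendsto_atTop_zero.norm.bddAbove_range
    refine Summable.of_nonneg_of_le (fun _ => norm_nonneg _) (fun k => ?_)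
      ((summable_geometric_of_lt_one (by positivity) ((div_lt_one hR0).2 hR₂)).mul_left Bd)
    have hk := hBd ⟨k, rfl⟩
    simp only [norm_mul, norm_pow, Complex.norm_real, Real.norm_of_nonneg hR0.le] at hk
    rw [norm_mul, norm_pow, Complex.norm_real, Real.norm_of_nonneg hR.le, div_pow,
      mul_div_assoc', le_div_iff₀ (by positivity)]
    calc ‖c k‖ * R ^ k * R₂ ^ k = ‖c k‖ * R₂ ^ k * R ^ k := by ring
      _ ≤ Bd * R ^ k := mul_le_mul_of_nonneg_right hk (by positivity)
  refine ⟨⟨fun k => c k * (R : ℂ) ^ k,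
    memℓp_two_of_summable (summable_sq_of_summable_norm hsumR)⟩, fun s hs => ?_⟩
  rw [evalCoord, ← (hsum s (hs.trans hRR)).tsum_eq]
  refine tsum_congr fun k => ?_
  show c k * (R : ℂ) ^ k * _ = _
  rw [mul_assoc, ← mul_pow, mul_div_cancel₀ _ (Complex.ofReal_ne_zero.2 hR.ne')]

end FA.Voronin
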